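/-
Project M59 (S59), block [E'] (architect helper3), cell [EP-TWIN] (helper5 + helper22), tag `m59epw_`.
Twin of `TW/Aut/OldIterOne.lean`: `m59epw_oio_one`, `m59epw_oio_oldIter`.
Rule of the cell: the twin of main's `twe_X` is `m59epw_X`; `5 ≤ p` becomes `p ≠ 2`; `Squarefree N` and
`¬ p ∣ N` are dropped; `h12` becomes `hPE` (every `γ ∈ Γ₀(M)` with `tr² ≤ 4` lies in `Γ_H`).  Same proofs.
-/
import Mathlib
import Fermat.Agent.TW.Aut.OldIterOne
import Fermat.Agent.M59.EP.Twin.OldIterStmt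

set_option autoImplicit false
set_option linter.unusedSectionVars false
set_option linter.unusedVariables false
set_option linter.style.haveILetI false
set_option synthInstance.maxHeartbeats 400000
set_option maxHeartbeats 1000000

noncomputable section

namespace Fermat.Agent.M59

open IsLocalRing Polynomial CuspForm Fermat.Agent.JT3 Fermat.Agent.LR CongruenceSubgroup Fermat.Agent.TW
open scoped MatrixGroups

/-- **the one-prime statement of (C5).** -/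
theorem m59epw_oio_one : m59epw_ois_One_stmt := by
  intro p _ hp2 𝒪 _ _ _ _ _ _ hp𝒪 N _ S hpS hNS θ ρbar hcompat hirr Q hQS hTW I q hq hqall
    a ha s t hst hts _ htM
  classical
  have htQ : t ∈ Q := hst (Finset.mem_insert_self t s)
  have hsQ : s ⊆ Q := fun x hx => hst (Finset.mem_insert_of_mem hx)
  obtain ⟨htprime, htp1, hTWt⟩ := hTW t htQ
  have hM₁0 : N * ∏ x ∈ s, x ≠ 0 := by
    refine mul_ne_zero (NeZero.ne N) (Finset.prod_ne_zero_iff.2 fun x hx => ?_)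
    exact (hTW x (hsQ hx)).1.ne_zero
  haveI : NeZero (N * ∏ x ∈ s, x) := ⟨hM₁0⟩
  haveI : NeZero t := ⟨htprime.ne_zero⟩
  set M₁ : ℕ := N * ∏ x ∈ s, x with hM₁
  set S' : Finset ℕ := S ∪ Q with hS'
  have htp : t ≠ p := fun h => hQS t htQ (h ▸ hpS)
  have hpS' : p ∈ S' := Finset.mem_union_left _ hpS
  have hMS' : ∀ r : ℕ, r.Prime → r ∣ M₁ * t → r ∈ S' := by
    intro r hr hd
    rcases (Nat.Prime.dvd_mul hr).1 hd with h1 | h1
    · rcases (Nat.Prime.dvd_mul hr).1 h1 with h2 | h2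
      · exact Finset.mem_union_left _ (hNS r hr h2)
      · obtain ⟨x, hx, hxt⟩ := (Prime.dvd_finsetProd_iff hr.prime _).mp h2
        have hrx : r = x := (Nat.prime_dvd_prime_iff_eq hr (hTW x (hsQ hx)).1).mp hxt
        exact Finset.mem_union_right _ (hrx ▸ hsQ hx)
    · have hrt : r = t := (Nat.prime_dvd_prime_iff_eq hr htprime).mp h1
      exact Finset.mem_union_right _ (hrt ▸ htQ)
  have hGiff : ∀ ℓ, pk_Good (M₁ * t) S' ℓ ↔ pk_Good N S' ℓ := by
    intro ℓ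
    refine ⟨fun h => ⟨h.1, fun hd => h.2.1 (Dvd.dvd.mul_right (Dvd.dvd.mul_right hd _) _), h.2.2⟩,
      fun h => ⟨h.1, fun hd => ?_, h.2.2⟩⟩
    exact h.2.2 (Finset.mem_coe.2 (hMS' ℓ h.1 hd))
  have hgood : ∀ ℓ, pk_Good (M₁ * t) S' ℓ → ¬ ℓ ∣ N ∧ ℓ ∉ (↑S : Set ℕ) := fun ℓ h =>
    ⟨((hGiff ℓ).1 h).2.1, fun hmem =>
      h.2.2 (Finset.mem_coe.2 (Finset.mem_union_left _ (Finset.mem_coe.1 hmem)))⟩
  have htN : ¬ t ∣ N := fun hd => htM (Dvd.dvd.mul_right hd _)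
  have htS : t ∉ (↑S : Set ℕ) := fun hmem => hQS t htQ (Finset.mem_coe.1 hmem)
  -- the lifts indexed by the primes
  set a' : ℕ → 𝒪 := fun ℓ => if h : ∃ i, q i = ℓ then a h.choose else 0 with ha'
  have hres : ∀ i j, q i = q j → residue 𝒪 (a i) = residue 𝒪 (a j) := by
    intro i j hij
    rw [ha i, ha j]
    exact congrArg θ (twe_oio_T_congr hij _ _ _ _ _ _)
  have ha'q : ∀ i, a' (q i) = a (⟨i, rfl⟩ : ∃ j, q j = q i).choose := fun i =>
    dif_pos (⟨i, rfl⟩ : ∃ j, q j = q i)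
  have haa' : ∀ i, a' (q i) - a i ∈ maximalIdeal 𝒪 := by
    intro i
    rw [ha'q i, ← residue_eq_zero_iff, map_sub, sub_eq_zero]
    exact hres _ _ (⟨i, rfl⟩ : ∃ j, q j = q i).choose_spec
  have ha'res : ∀ ℓ (hg : pk_Good (M₁ * t) S' ℓ),
      residue 𝒪 (a' ℓ) = θ (heckeAlgebra.T hg.1 (hgood ℓ hg).1 (hgood ℓ hg).2) := by
    intro ℓ hg
    obtain ⟨i, rfl⟩ := hqall ℓ ((hGiff ℓ).1 hg)
    have h1 := haa' i
    rw [← residue_eq_zero_iff, map_sub, sub_eq_zero] at h1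
    rw [h1, ha i]
  have hiff : ∀ (M : ℕ) (x : gh_H M →+ 𝒪),
      x ∈ twe_pr_prim (twe_sm_TX 𝒪 M q) a ↔ twe_om_IsPrim M (pk_Good (M₁ * t) S') a' x :=
    fun M x => twe_oio_mem_iff q a _ (fun i => (hGiff _).2 (hq i))
      (fun ℓ hℓ => hqall ℓ ((hGiff ℓ).1 hℓ)) a' haa' M x
  obtain ⟨-, h2, h3⟩ := twe_om_main hp𝒪 M₁ t htM htp htp1 S' hpS' hMS' θ ρbar hcompat hgood htN htS
    (hTWt htprime htN htS) a' ha'res _ (hiff M₁) _ (hiff (M₁ * t))
  exact ⟨h2, h3⟩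

/-- **(C5)**: the iterated E/Old isomorphism. -/
theorem m59epw_oio_oldIter : m59epw_sm_OldIter_stmt := m59epw_ois_of_one m59epw_oio_one

end Fermat.Agent.M59
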