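/-
Project M59 (S59), block [E'] (architect helper3), cell [EP-TWIN] (helper5 + helper22), tag `m59epw_`.
Twin of `TW/Aut/SeamCoinv.lean`: `m59epw_sc_prim_iff`, `m59epw_sc_primEquiv`, `m59epw_sc_main`.
Rule of the cell: the twin of main's `twe_X` is `m59epw_X`; `5 ≤ p` becomes `p ≠ 2`; `Squarefree N` and
`¬ p ∣ N` are dropped; `h12` becomes `hPE` (every `γ ∈ Γ₀(M)` with `tr² ≤ 4` lies in `Γ_H`).  Same proofs.
-/
import Mathlib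
import Fermat.Agent.TW.Aut.SeamCoinv
import Fermat.Agent.M59.EP.Twin.OldIterOne

set_option autoImplicit false
set_option linter.unusedSectionVars false
set_option linter.unusedVariables false
set_option linter.style.haveILetI false
set_option synthInstance.maxHeartbeats 400000
set_option maxHeartbeats 1000000

noncomputable section

namespace Fermat.Agent.M59

open IsLocalRing Polynomial CuspForm Fermat.Agent.JT3 Fermat.Agent.LR CongruenceSubgroup Fermat.Agent.TW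
open scoped MatrixGroups

variable {p : ℕ} [Fact p.Prime]
  {𝒪 : Type} [CommRing 𝒪] [IsDomain 𝒪] [IsDiscreteValuationRing 𝒪]
  [IsAdicComplete (maximalIdeal 𝒪) 𝒪] [Finite (ResidueField 𝒪)] [CharZero 𝒪]
  {N : ℕ} [NeZero N] {S : Finset ℕ} {θ : heckeAlgebra N 2 (↑S : Set ℕ) →+* ResidueField 𝒪}

/-- **the `θ`-primary part of `Hom(gh_H N, 𝒪)` is `M_∅ = range B.ι`** for a full base package, for
ANY family `q` enumerating the good primes of `(N, S')`, `S ⊆ S'`, and ANY lifts `a` of `θ`. -/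
theorem m59epw_sc_prim_iff (hp2 : p ≠ 2) (hp𝒪 : (p : 𝒪) ∈ maximalIdeal 𝒪)
    (hpS : p ∈ S) (hNS : ∀ ℓ : ℕ, ℓ.Prime → ℓ ∣ N → ℓ ∈ S)
    (ρbar : ResidualGaloisRep (ResidueField 𝒪)) (hcompat : twt_Compat θ ρbar)
    (hirr : ρbar.IsAbsolutelyIrreducible)
    (B : twe_Base 𝒪 N S θ) (hfull : B.IsFull)
    (S' : Finset ℕ) (hSS' : S ⊆ S')
    {I : Type} (q : I → ℕ) (hq : ∀ i, pk_Good N S' (q i))
    (hqall : ∀ ℓ, pk_Good N S' ℓ → ∃ i, q i = ℓ)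
    (a : I → 𝒪)
    (ha : ∀ i, residue 𝒪 (a i) = θ (heckeAlgebra.T (hq i).1 (hq i).2.1
      (fun h => (hq i).2.2 (Finset.coe_subset.mpr hSS' h))))
    (x : gh_H N →+ 𝒪) :
    x ∈ twe_pr_prim (twe_sm_TX 𝒪 N q) a ↔ x ∈ LinearMap.range B.ι := by
  classical
  -- lifts at all the good primes of `(N, S)`
  have hex : ∀ ℓ : twe_sm_Idx N S, ∃ c : 𝒪,
      residue 𝒪 c = θ (heckeAlgebra.T ℓ.2.1 ℓ.2.2.1 ℓ.2.2.2) :=
    fun ℓ => residue_surjective _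
  choose a₀ ha₀ using hex
  have hlift : twe_sm_IsLift θ a₀ := ha₀
  set a₁ : twe_sm_Idx N S' → 𝒪 :=
    fun ℓ => a₀ ⟨ℓ.1, ℓ.2.1, ℓ.2.2.1, fun h => ℓ.2.2.2 (Finset.coe_subset.mpr hSS' h)⟩ with ha₁
  set a' : ℕ → 𝒪 := fun ℓ => if h : pk_Good N S' ℓ then a₁ ⟨ℓ, h⟩ else 0 with ha'
  have ha'1 : ∀ ℓ : twe_sm_Idx N S', a' ℓ.1 = a₁ ℓ := fun ℓ => dif_pos ℓ.2
  -- the two dictionaries
  have h1 : x ∈ twe_pr_prim (twe_sm_TX 𝒪 N q) a ↔ twe_om_IsPrim N (pk_Good N S') a' x := by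
    refine twe_oio_mem_iff q a _ hq hqall a' (fun i => ?_) N x
    rw [← residue_eq_zero_iff, map_sub, sub_eq_zero, ha i,
      ha'1 ⟨q i, hq i⟩, ha₁]
    exact ha₀ _
  have h2 : x ∈ twe_pr_prim (twe_sm_TX 𝒪 N (twe_sm_q N S')) a₁ ↔
      twe_om_IsPrim N (pk_Good N S') a' x := by
    refine twe_oio_mem_iff (twe_sm_q N S') a₁ _ (fun ℓ => ℓ.2) (fun ℓ hℓ => ⟨⟨ℓ, hℓ⟩, rfl⟩) a'
      (fun ℓ => ?_) N x
    rw [ha'1 ℓ, sub_self]
    exact zero_mem _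
  rw [h1, ← h2]
  constructor
  · intro hx
    exact hfull a₀ hlift x
      (twe_piu_main_gen p 𝒪 hp𝒪 N S hpS hNS θ ρbar hcompat S' hSS' a₀ hlift hx)
  · rintro ⟨v, rfl⟩
    have h3 := twe_sa_prim_iota B a₀ hlift v
    intro ℓ k
    exact h3 ⟨ℓ.1, ℓ.2.1, ℓ.2.2.1, fun h => ℓ.2.2.2 (Finset.coe_subset.mpr hSS' h)⟩ k

/-- **`prim Hom(gh_H N, 𝒪) ≃ 𝒪^d`**, Hecke-equivariantly. -/
theorem m59epw_sc_primEquiv (hp2 : p ≠ 2) (hp𝒪 : (p : 𝒪) ∈ maximalIdeal 𝒪)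
    (hpS : p ∈ S) (hNS : ∀ ℓ : ℕ, ℓ.Prime → ℓ ∣ N → ℓ ∈ S)
    (ρbar : ResidualGaloisRep (ResidueField 𝒪)) (hcompat : twt_Compat θ ρbar)
    (hirr : ρbar.IsAbsolutelyIrreducible)
    (B : twe_Base 𝒪 N S θ) (hfull : B.IsFull)
    (S' : Finset ℕ) (hSS' : S ⊆ S')
    {I : Type} (q : I → ℕ) (hq : ∀ i, pk_Good N S' (q i))
    (hqall : ∀ ℓ, pk_Good N S' ℓ → ∃ i, q i = ℓ)
    (a : I → 𝒪)
    (ha : ∀ i, residue 𝒪 (a i) = θ (heckeAlgebra.T (hq i).1 (hq i).2.1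
      (fun h => (hq i).2.2 (Finset.coe_subset.mpr hSS' h)))) :
    ∃ e : ↥(twe_pr_prim (twe_sm_TX 𝒪 N q) a) ≃ₗ[𝒪] (Fin B.d → 𝒪),
      (∀ x, B.ι (e x) = (x : gh_H N →+ 𝒪)) ∧
      ∀ (i : I) (x y : ↥(twe_pr_prim (twe_sm_TX 𝒪 N q) a)),
        (y : gh_H N →+ 𝒪) = twe_sm_TX 𝒪 N q i (x : gh_H N →+ 𝒪) →
        e y = (B.j (B.H.π (heckeAlgebra.T (hq i).1 (hq i).2.1
          (fun h => (hq i).2.2 (Finset.coe_subset.mpr hSS' h))))).mulVec (e x) := by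
  have hEq : twe_pr_prim (twe_sm_TX 𝒪 N q) a = LinearMap.range B.ι :=
    Submodule.ext fun x => m59epw_sc_prim_iff hp2 hp𝒪 hpS hNS ρbar hcompat hirr B hfull S' hSS' q
      hq hqall a ha x
  set e : ↥(twe_pr_prim (twe_sm_TX 𝒪 N q) a) ≃ₗ[𝒪] (Fin B.d → 𝒪) :=
    (LinearEquiv.ofEq _ _ hEq).trans (LinearEquiv.ofInjective B.ι B.ι_injective).symm with he
  have he1 : ∀ x, B.ι (e x) = (x : gh_H N →+ 𝒪) := by
    intro x
    have h1 : (LinearEquiv.ofInjective B.ι B.ι_injective) (e x) = LinearEquiv.ofEq _ _ hEq x := by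
      rw [he, LinearEquiv.trans_apply, LinearEquiv.apply_symm_apply]
    have h2 := congrArg Subtype.val h1
    rw [LinearEquiv.ofInjective_apply] at h2
    exact h2
  refine ⟨e, he1, fun i x y hxy => ?_⟩
  apply B.ι_injective
  rw [he1 y, hxy, B.ι_hecke (q i) (hq i).1 (hq i).2.1
    (fun h => (hq i).2.2 (Finset.coe_subset.mpr hSS' h)) (e x), he1 x]
  rfl

section main

/-- **the coinvariant map of the unipotent system**: the field group `(c, c_surjective, c_ker,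
c_hecke)` of `twe_mk_LevelData` on generators, from the outputs of E/Free (`twe_fk_main`). -/
theorem m59epw_sc_main (hp2 : p ≠ 2) (hp𝒪 : (p : 𝒪) ∈ maximalIdeal 𝒪)
    (hpS : p ∈ S) (hNS : ∀ ℓ : ℕ, ℓ.Prime → ℓ ∣ N → ℓ ∈ S)
    (ρbar : ResidualGaloisRep (ResidueField 𝒪)) (hcompat : twt_Compat θ ρbar)
    (hirr : ρbar.IsAbsolutelyIrreducible)
    (B : twe_Base 𝒪 N S θ) (hfull : B.IsFull)
    (Q : Finset ℕ) (hQS : ∀ t ∈ Q, t ∉ S) (hTW : twe_IsTWSet θ p Q)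
    {I : Type} (q : I → ℕ) (hq : ∀ i, pk_Good N (S ∪ Q) (q i))
    (hqall : ∀ ℓ, pk_Good N (S ∪ Q) ℓ → ∃ i, q i = ℓ)
    (a : I → 𝒪)
    (ha : ∀ i, residue 𝒪 (a i) = θ (heckeAlgebra.T (hq i).1 (hq i).2.1
      (fun h => (hq i).2.2 (Finset.coe_subset.mpr Finset.subset_union_left h))))
    (M : ℕ) [NeZero M] (hM : M = N * ∏ t ∈ Q, t)
    [hqF : ∀ i, Fact (q i).Prime] (hqM : ∀ i, ¬ q i ∣ M)
    (H : Subgroup (ZMod M)ˣ) (s : I → Gamma0 M)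
    (hs : ∀ i, twe_dUnit M (s i) * twe_dUnit M (s i) * (twe_hk_lU (hqM i))⁻¹ ∈ H)
    {ι : Type} [Fintype ι] {ρc : ι → SL(2, ℤ)} (hρ : ∀ i, ρc i ∈ Gamma0 M)
    (hbij : ∀ γ ∈ Gamma0 M, ∃! i, (ρc i)⁻¹ * γ ∈ twe_GamH M H)
    (hcorT : ∀ i z, twe_wl_cor hρ hbij (twe_fo_T' 𝒪 𝒪 q hqM H s hs i z) =
      twe_fo_T0 𝒪 𝒪 q hqM i (twe_wl_cor hρ hbij z))
    (hsurj : ∀ y ∈ twe_pr_prim (twe_fo_T0 𝒪 𝒪 q hqM) a,
      ∃ z ∈ twe_pr_prim (twe_fo_T' 𝒪 𝒪 q hqM H s hs) a, twe_wl_cor hρ hbij z = y)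
    (hker : ∀ z ∈ twe_pr_prim (twe_fo_T' 𝒪 𝒪 q hqM H s hs) a,
      twe_wl_cor (R := 𝒪) hρ hbij z = 0 →
        z ∈ Submodule.span 𝒪 {w | ∃ g : Gamma0 M,
          ∃ u ∈ twe_pr_prim (twe_fo_T' 𝒪 𝒪 q hqM H s hs) a, w = twe_wl_conj H g u - u}) :
    ∃ c : ↥(twe_pr_prim (twe_fo_T' 𝒪 𝒪 q hqM H s hs) a) →ₗ[𝒪] (Fin (2 ^ Q.card) → Fin B.d → 𝒪),
      Function.Surjective c ∧
      (∀ z : ↥(twe_pr_prim (twe_fo_T' 𝒪 𝒪 q hqM H s hs) a), c z = 0 ↔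
        (z : ↥(twe_wl_V 𝒪 𝒪 (twe_GamH M H))) ∈ Submodule.span 𝒪 {w | ∃ g : Gamma0 M,
          ∃ u ∈ twe_pr_prim (twe_fo_T' 𝒪 𝒪 q hqM H s hs) a, w = twe_wl_conj H g u - u}) ∧
      ∀ (i : I) (z y : ↥(twe_pr_prim (twe_fo_T' 𝒪 𝒪 q hqM H s hs) a)),
        (y : ↥(twe_wl_V 𝒪 𝒪 (twe_GamH M H))) = twe_fo_T' 𝒪 𝒪 q hqM H s hs i z →
        ∀ k, c y k = (B.j (B.H.π (heckeAlgebra.T (hq i).1 (hq i).2.1
          (fun h => (hq i).2.2 (Finset.coe_subset.mpr Finset.subset_union_left h))))).mulVec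
            (c z k) := by
  classical
  -- the four maps
  set PT' := twe_pr_prim (twe_fo_T' 𝒪 𝒪 q hqM H s hs) a with hPT'
  set PT0 := twe_pr_prim (twe_fo_T0 𝒪 𝒪 q hqM) a with hPT0
  have hcorP : ∀ z ∈ PT', twe_wl_cor (R := 𝒪) hρ hbij z ∈ PT0 := fun z hz =>
    twe_pr_map_prim (twe_wl_cor (R := 𝒪) hρ hbij) _ _ hcorT a hz
  set corP : ↥PT' →ₗ[𝒪] ↥PT0 :=
    ((twe_wl_cor (R := 𝒪) hρ hbij).domRestrict PT').codRestrict PT0 (fun z => hcorP z.1 z.2)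
    with hcorPdef
  have hcorP_coe : ∀ z : ↥PT', ((corP z : ↥PT0) : ↥(twe_wl_V 𝒪 𝒪 (Gamma0 M))) =
      twe_wl_cor (R := 𝒪) hρ hbij z.1 := fun z => rfl
  set br : ↥PT0 ≃ₗ[𝒪] ↥(twe_pr_prim (twe_sm_TX 𝒪 M q) a) := twe_br_primEquiv q hqF hqM a with hbr
  have hbr_coe : ∀ y : ↥PT0, ((br y : ↥(twe_pr_prim (twe_sm_TX 𝒪 M q) a)) : gh_H M →+ 𝒪) =
      twe_br_equiv 𝒪 𝒪 M y.1 := fun y => rfl
  obtain ⟨c₀, hc₀bij, hc₀T⟩ := m59epw_oio_oldIter p hp2 𝒪 hp𝒪 N S hpS hNS θ ρbar hcompat hirr Q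
    hQS hTW q hq hqall a ha M hM
  obtain ⟨e, he1, heT⟩ := m59epw_sc_primEquiv hp2 hp𝒪 hpS hNS ρbar hcompat hirr B hfull (S ∪ Q)
    Finset.subset_union_left q hq hqall a ha
  set c : ↥PT' →ₗ[𝒪] (Fin (2 ^ Q.card) → Fin B.d → 𝒪) :=
    ((e : ↥(twe_pr_prim (twe_sm_TX 𝒪 N q) a) →ₗ[𝒪] (Fin B.d → 𝒪)).compLeft (Fin (2 ^ Q.card))) ∘ₗ
      c₀ ∘ₗ (br : ↥PT0 →ₗ[𝒪] _) ∘ₗ corP with hc
  have hc_apply : ∀ z k, c z k = e (c₀ (br (corP z)) k) := fun z k => rfl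
  have hcorP_surj : Function.Surjective corP := by
    intro y
    obtain ⟨z, hz, hzy⟩ := hsurj y.1 y.2
    exact ⟨⟨z, hz⟩, Subtype.ext hzy⟩
  have hinj : ∀ z, c z = 0 ↔ corP z = 0 := by
    intro z
    constructor
    · intro h0
      have h1 : c₀ (br (corP z)) = 0 := by
        funext k
        have h2 := congrFun h0 k
        rw [hc_apply] at h2
        exact e.injective (h2.trans (map_zero e).symm)
      have h3 : br (corP z) = 0 := hc₀bij.1 (h1.trans (map_zero c₀).symm)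
      exact br.injective (h3.trans (map_zero br).symm)
    · intro h0
      funext k
      rw [hc_apply, h0, map_zero, map_zero]
      simp
  refine ⟨c, ?_, ?_, ?_⟩
  · -- surjectivity
    intro w
    obtain ⟨u, hu⟩ := hc₀bij.2 (fun k => e.symm (w k))
    obtain ⟨z, hz⟩ := hcorP_surj (br.symm u)
    refine ⟨z, ?_⟩
    funext k
    rw [hc_apply, hz, LinearEquiv.apply_symm_apply, hu, LinearEquiv.apply_symm_apply]
  · -- kernel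
    intro z
    rw [hinj z]
    constructor
    · intro h0
      have h1 : twe_wl_cor (R := 𝒪) hρ hbij z.1 = 0 := by
        rw [← hcorP_coe z, h0]
        rfl
      exact hker z.1 z.2 h1
    · intro hz
      apply Subtype.ext
      rw [hcorP_coe z]
      show twe_wl_cor (R := 𝒪) hρ hbij z.1 = 0
      refine Submodule.span_induction (p := fun w _ => twe_wl_cor (R := 𝒪) hρ hbij w = 0)
        ?_ ?_ ?_ ?_ hz
      · rintro w ⟨g, u, -, rfl⟩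
        rw [map_sub, twe_fo_cor_conj, sub_self]
      · exact map_zero _
      · intro u v _ _ hu hv
        rw [map_add, hu, hv, add_zero]
      · intro r u _ hu
        rw [map_smul, hu, smul_zero]
  · -- Hecke equivariance
    intro i z y hyz k
    rw [hc_apply, hc_apply]
    have h1 : ((corP y : ↥PT0) : ↥(twe_wl_V 𝒪 𝒪 (Gamma0 M))) =
        twe_fo_T0 𝒪 𝒪 q hqM i ((corP z : ↥PT0) : ↥(twe_wl_V 𝒪 𝒪 (Gamma0 M))) := by
      rw [hcorP_coe, hcorP_coe, hyz, hcorT]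
    have h2 : ((br (corP y) : ↥(twe_pr_prim (twe_sm_TX 𝒪 M q) a)) : gh_H M →+ 𝒪) =
        twe_sm_TX 𝒪 M q i ((br (corP z) : ↥(twe_pr_prim (twe_sm_TX 𝒪 M q) a)) : gh_H M →+ 𝒪) := by
      rw [hbr_coe, hbr_coe, h1]
      exact twe_br_TX q hqF hqM i _
    have h3 := hc₀T i (br (corP z)) (br (corP y)) h2 k
    exact heT i _ _ h3

end main

end Fermat.Agent.M59
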