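/-
Project M59 (S59), block [E'] (architect helper3), cell [EP-TWIN] (helper5 + helper22), tag `m59epw_`:
E/Free with the hypothesis `h12` replaced by

  `hPE : ∀ γ : SL(2, ℤ), γ ∈ Gamma0 M → lrpd_tr γ ^ 2 ≤ 4 → γ ∈ twe_GamH M H`

("the cover `X_H → X₀(M)` is unramified, cusps included").  `h12` is FALSE for `p = 3` and for
`p ∣ M`; `hPE` is discharged in `M59/EP/Twin/PERigid.lean` for every prime `p ≥ 5` (any level) and for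
every odd `p` as soon as one prime `r ≡ 2 mod 3` divides the level.

Naming rule of the cell: the twin of main's `twe_X` is `m59epw_X`.  This file: twins (same proofs,
`h12 ↦ hPE`) of the eight `h12`-carrying theorems of `TW/Aut/FreeAsm.lean`, `TW/Aut/FreeK.lean`,
`TW/Aut/FreeKRel.lean`: `m59epw_fz_step`, `m59epw_fz_hinv_top`, `m59epw_fz_hinv`, `m59epw_fz_main`,
`m59epw_fz_main_rep`, `m59epw_fk_KInput`, `m59epw_fk_main`, `m59epw_fkr_main` (`hPE` for `H''`).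
-/
import Mathlib
import Fermat.Agent.TW.Aut.FreeKRel

set_option autoImplicit false
set_option linter.unusedSectionVars false
set_option linter.unusedVariables false

noncomputable section

open CongruenceSubgroup Matrix.SpecialLinearGroup
open scoped MatrixGroups

namespace Fermat.Agent.M59

open Fermat.Agent.TW Fermat.Agent.LR Fermat.Agent.JT3 Module

section system

variable {k : Type} [Field k] {M : ℕ} [NeZero M] {L : Type*} (ℓ : L → ℕ)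
  [hℓ : ∀ i, Fact (ℓ i).Prime] (hM : ∀ i, ¬ ℓ i ∣ M) (hinj : Function.Injective ℓ)
  (H : Subgroup (ZMod M)ˣ) (s : L → Gamma0 M)
  (hs : ∀ i, twe_dUnit M (s i) * twe_dUnit M (s i) * (twe_hk_lU (hM i))⁻¹ ∈ H)


theorem m59epw_fz_step (p N : ℕ) [Fact p.Prime] [CharP k p]
    (hexp : ∀ u : (ZMod M)ˣ, u ^ (p ^ N) ∈ H)
    (hPE : ∀ γ : SL(2, ℤ), γ ∈ Gamma0 M → lrpd_tr γ ^ 2 ≤ 4 → γ ∈ twe_GamH M H)
    {K K' : Subgroup (ZMod M)ˣ} (h : K ≤ K') (hK : H ≤ K) (g : Gamma0 M)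
    (hsup : K ⊔ Subgroup.zpowers (twe_dUnit M g) = K') (hgK : twe_dUnit M g ∉ K) :
    ∃ ob : ↥(twe_wl_V k k (twe_GamH M K)) →ₗ[k] k,
      (∀ z, twe_wl_conj K g z = z → ob z = 0 →
        z ∈ LinearMap.range (twe_wl_res (R := k) (A := k) (twe_GamH_mono h))) ∧
      (∀ i z, twe_wl_conj K g z = z →
        ob (twe_fz_T ℓ hM H s hs K i z) = ((ℓ i + 1 : ℕ) : k) • ob z) := by
  set q := orderOf (QuotientGroup.mk (s := K) (twe_dUnit M g)) with hq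
  have hpq : p ∣ q := twe_fz_dvd_order K (twe_dUnit M g) (Fact.out : p.Prime) hgK (hK (hexp _))
  have hqk : ∀ a : k, q • a = 0 := by
    intro a
    rw [← Nat.cast_smul_eq_nsmul k, (CharP.cast_eq_zero_iff k p q).2 hpq, zero_smul]
  have hgq : ((g ^ q : Gamma0 M) : SL(2, ℤ)) ∈ twe_GamH M K := twe_fz_step_pow_mem K g
  have hgK' : (g : SL(2, ℤ)) ∈ twe_GamH M K' := by
    rw [twe_fz_mem_GamH_iff, ← hsup]
    exact Subgroup.mem_sup_right (Subgroup.mem_zpowers _)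
  refine ⟨twe_fz_ev (⟨_, hgq⟩ : ↥(twe_GamH M K)), ?_, ?_⟩
  · intro z hz hob
    have hU : ∀ γ : SL(2, ℤ), γ ∈ twe_GamH M K' → lrpd_tr γ ^ 2 ≤ 4 → γ ∈ twe_GamH M K :=
      fun γ hγ htr => twe_GamH_mono hK (hPE γ (twe_GamH_le M K' hγ) htr)
    have hz' : twe_rc_conj (twe_eis_hnorm K K') (⟨g, hgK'⟩ : ↥(twe_GamH M K')) z.1 = z.1 := by
      rw [twe_eis_conj_eq]
      have := congrArg Subtype.val hz
      rw [twe_wl_conj_coe] at this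
      exact this
    obtain ⟨x, hxPE, hxz, -⟩ := twe_ob_exists_ext_PE (twe_GamH_mono h) (twe_eis_hnorm K K') hU
      (⟨g, hgK'⟩ : ↥(twe_GamH M K')) q (twe_fz_step_bij K K' g hsup) hgq z.1 z.2 hz' 0
      (by rw [smul_zero]; exact hob)
    exact ⟨⟨x, hxPE⟩, Subtype.ext hxz⟩
  · intro i z hz
    have hz' : twe_conj K g z.1 = z.1 := by
      have := congrArg Subtype.val hz
      rwa [twe_wl_conj_coe] at this
    show (twe_fz_T ℓ hM H s hs K i z).1 _ = _ • z.1 _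
    rw [twe_fz_T_coe ℓ hM H s hs hK,
      twe_eis_ob_char (hM i) K (s i) (hK (hs i)) g q hgq hqk z.1 hz', Nat.cast_smul_eq_nsmul]

end system

section hinv

variable {k : Type} [Field k] {M : ℕ} [NeZero M] {L : Type*} (ℓ : L → ℕ)
  [hℓ : ∀ i, Fact (ℓ i).Prime] (hM : ∀ i, ¬ ℓ i ∣ M) (hinj : Function.Injective ℓ)
  (H : Subgroup (ZMod M)ˣ) (s : L → Gamma0 M)
  (hs : ∀ i, twe_dUnit M (s i) * twe_dUnit M (s i) * (twe_hk_lU (hM i))⁻¹ ∈ H)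

include hinj in
/-- **(T1) iterated, concretely**: a `Γ₀(M)`-invariant class of `W(Γ_H, k)_𝔪` is the restriction of a
class of `W(Γ_⊤, k)_𝔪`. -/
theorem m59epw_fz_hinv_top (p N : ℕ) [Fact p.Prime] [CharP k p]
    (hexp : ∀ u : (ZMod M)ˣ, u ^ (p ^ N) ∈ H)
    (hPE : ∀ γ : SL(2, ℤ), γ ∈ Gamma0 M → lrpd_tr γ ^ 2 ≤ 4 → γ ∈ twe_GamH M H) (a : L → k) (i₀ : L)
    (hne : a i₀ ≠ ((ℓ i₀ + 1 : ℕ) : k)) {z : ↥(twe_wl_V k k (twe_GamH M H))}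
    (hz : z ∈ twe_fa_loc (twe_fz_T ℓ hM H s hs H) a)
    (hinv : ∀ g : Gamma0 M, twe_wl_conj H g z = z) :
    ∃ x ∈ twe_fa_loc (twe_fz_T ℓ hM H s hs ⊤) a,
      twe_wl_res (twe_GamH_mono (le_top : H ≤ ⊤)) x = z := by
  have key := @twe_fz_chain k _ (ZMod M)ˣ _ _ (Gamma0 M) _ L
    (fun K => ↥(twe_wl_V k k (twe_GamH M K))) (fun K => inferInstance) (fun K => inferInstance)
    (fun K => twe_wl_finite_V (twe_GamH M K))
    (twe_dUnit M) (twe_fz_dUnit_surjective M) H (twe_fz_T ℓ hM H s hs)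
    (fun K K' h => twe_wl_res (twe_GamH_mono h)) (fun K g => twe_wl_conj K g)
    (fun i => ((ℓ i + 1 : ℕ) : k)) a i₀ hne
  refine key ?_ ?_ ?_ ?_ ?_ ?_ ?_ ?_ hz hinv
  · exact fun K x => twe_fz_res_id _ x
  · exact fun K K' K'' h h' x => twe_fz_res_comp _ _ x
  · exact fun K hK i j => twe_fz_commT ℓ hM hinj H s hs hK i j
  · exact fun K hK g i z => twe_fz_cT ℓ hM H s hs hK g i z
  · exact fun K K' h hK i x => twe_fz_resT ℓ hM H s hs h hK i x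
  · exact fun K K' h g x => twe_fz_cres h g x
  · exact fun K K' h hK x hx i => twe_fz_ker ℓ hM H s hs h hK x hx i
  · exact fun K K' h hK g hsup hgK => m59epw_fz_step ℓ hM H s hs p N hexp hPE h hK g hsup hgK

include hinj in
/-- **(T1) iterated, down to `Γ₀(M)`.** -/
theorem m59epw_fz_hinv (p N : ℕ) [Fact p.Prime] [CharP k p]
    (hexp : ∀ u : (ZMod M)ˣ, u ^ (p ^ N) ∈ H)
    (hPE : ∀ γ : SL(2, ℤ), γ ∈ Gamma0 M → lrpd_tr γ ^ 2 ≤ 4 → γ ∈ twe_GamH M H) (a : L → k) (i₀ : L)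
    (hne : a i₀ ≠ ((ℓ i₀ + 1 : ℕ) : k)) {z : ↥(twe_wl_V k k (twe_GamH M H))}
    (hz : z ∈ twe_fa_loc (fun i => twe_wl_T (R := k) (A := k) (hM i) H (s i) (hs i)) a)
    (hinv : ∀ g : Gamma0 M, twe_wl_conj H g z = z) :
    ∃ x ∈ twe_fa_loc (fun i => twe_wl_T0 (R := k) (A := k) (hM i)) a,
      twe_wl_res (twe_GamH_le M H) x = z := by
  have hT : twe_fz_T (k := k) ℓ hM H s hs H = fun i => twe_wl_T (hM i) H (s i) (hs i) :=
    funext fun i => twe_fz_T_eq ℓ hM H s hs le_rfl i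
  have hz' : z ∈ twe_fa_loc (twe_fz_T ℓ hM H s hs H) a := by rw [hT]; exact hz
  obtain ⟨x, hx, hxz⟩ := @m59epw_fz_hinv_top k _ M _ L ℓ hℓ hM hinj H s hs p N _ _ hexp hPE a i₀ hne z
    hz' hinv
  have hge : Gamma0 M ≤ twe_GamH M ⊤ := (twe_GamH_top M).ge
  obtain ⟨x0, rfl⟩ := twe_fz_res_surjective_of_eq (k := k) (twe_GamH_le M ⊤) hge x
  refine ⟨x0, ?_, ?_⟩
  · show x0 ∈ twe_fa_loc (fun i => twe_wl_T0 (R := k) (A := k) (hM i)) a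
    generalize hT0 : (fun i => twe_wl_T0 (R := k) (A := k) (hM i)) = T0
    have hint : ∀ (i : L) (y : ↥(twe_wl_V k k (Gamma0 M))),
        twe_wl_res (twe_GamH_le M ⊤) (T0 i y) =
          twe_fz_T ℓ hM H s hs ⊤ i (twe_wl_res (twe_GamH_le M ⊤) y) := by
      intro i y
      rw [← hT0, twe_fz_T_eq ℓ hM H s hs le_top]
      exact twe_wl_T_res_top (hM i) ⊤ (s i) _ y
    have hF : Function.Injective (twe_wl_res (R := k) (A := k) (twe_GamH_le M ⊤)) :=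
      twe_fz_res_injective_of_eq (twe_GamH_le M ⊤) hge
    exact @twe_fz_loc_of_inj k _ L ↥(twe_wl_V k k (Gamma0 M)) ↥(twe_wl_V k k (twe_GamH M ⊤))
      inferInstance inferInstance inferInstance inferInstance
      (twe_wl_res (R := k) (A := k) (twe_GamH_le M ⊤)) hF T0 (twe_fz_T ℓ hM H s hs ⊤) hint a x0 hx
  · rw [← hxz, twe_fz_res_comp]

end hinv

section main

variable {k : Type} [Field k] (h2 : (2 : k) ≠ 0) {M : ℕ} [NeZero M] {L : Type*} (ℓ : L → ℕ)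
  [hℓ : ∀ i, Fact (ℓ i).Prime] (hM : ∀ i, ¬ ℓ i ∣ M) (hinj : Function.Injective ℓ)
  (H : Subgroup (ZMod M)ˣ) (hneg : (-1 : (ZMod M)ˣ) ∈ H) (s : L → Gamma0 M)
  (hs : ∀ i, twe_dUnit M (s i) * twe_dUnit M (s i) * (twe_hk_lU (hM i))⁻¹ ∈ H)

include h2 hinj hneg in
/-- **E/Free at the `k`-level, concretely.**  `V' = W(Γ_H, k)`, `V0 = W(Γ₀(M), k)`, localised at a
non-Eisenstein system `a`; `Δ = Γ₀(M)/Γ_H` a `p`-group (`p = char k`), `d : Γ₀(M) ↠ Δ` with kernel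
`Γ_H`; `cor` the transfer for ANY system of representatives. -/
theorem m59epw_fz_main (p N : ℕ) [Fact p.Prime] [CharP k p]
    (hPE : ∀ γ : SL(2, ℤ), γ ∈ Gamma0 M → lrpd_tr γ ^ 2 ≤ 4 → γ ∈ twe_GamH M H) (a : L → k) (i₀ : L)
    (hne : a i₀ ≠ ((ℓ i₀ + 1 : ℕ) : k))
    {Δ : Type*} [CommGroup Δ] [Fintype Δ] (d : Gamma0 M →* Δ) (hd : Function.Surjective d)
    (hker : d.ker = twe_GamH' M H) (hΔ : ∀ δ : Δ, δ ^ (p ^ N) = 1)
    {ι : Type} [Fintype ι] {r : ι → SL(2, ℤ)} (hr : ∀ i, r i ∈ Gamma0 M)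
    (hbij : ∀ γ ∈ Gamma0 M, ∃! i, (r i)⁻¹ * γ ∈ twe_GamH M H) :
    finrank k (twe_fa_loc (fun i => twe_wl_T (R := k) (A := k) (hM i) H (s i) (hs i)) a) =
        Fintype.card Δ * finrank k (twe_fa_loc (fun i => twe_wl_T0 (R := k) (A := k) (hM i)) a) ∧
      (∀ x ∈ twe_fa_loc (fun i => twe_wl_T0 (R := k) (A := k) (hM i)) a,
        twe_wl_res (twe_GamH_le M H) x = 0 → x = 0) ∧
      (∀ x ∈ twe_fa_loc (fun i => twe_wl_T0 (R := k) (A := k) (hM i)) a,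
        twe_wl_res (twe_GamH_le M H) x ∈
            twe_fa_loc (fun i => twe_wl_T (R := k) (A := k) (hM i) H (s i) (hs i)) a ∧
          ∀ g : Gamma0 M, twe_wl_conj H g (twe_wl_res (twe_GamH_le M H) x) =
            twe_wl_res (twe_GamH_le M H) x) ∧
      (∀ z ∈ twe_fa_loc (fun i => twe_wl_T (R := k) (A := k) (hM i) H (s i) (hs i)) a,
        (∀ g : Gamma0 M, twe_wl_conj H g z = z) →
          ∃ x ∈ twe_fa_loc (fun i => twe_wl_T0 (R := k) (A := k) (hM i)) a,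
            twe_wl_res (twe_GamH_le M H) x = z) ∧
      (∀ y ∈ twe_fa_loc (fun i => twe_wl_T0 (R := k) (A := k) (hM i)) a,
        ∃ z ∈ twe_fa_loc (fun i => twe_wl_T (R := k) (A := k) (hM i) H (s i) (hs i)) a,
          twe_wl_res (twe_GamH_le M H) (twe_wl_cor hr hbij z) = twe_wl_res (twe_GamH_le M H) y) ∧
      (∀ z ∈ twe_fa_loc (fun i => twe_wl_T (R := k) (A := k) (hM i) H (s i) (hs i)) a,
        twe_wl_res (twe_GamH_le M H) (twe_wl_cor hr hbij z) = 0 →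
          z ∈ Submodule.span k {w | ∃ g : Gamma0 M,
            ∃ u ∈ twe_fa_loc (fun i => twe_wl_T (R := k) (A := k) (hM i) H (s i) (hs i)) a,
              w = twe_wl_conj H g u - u}) := by
  classical
  -- the exponent hypothesis in the form `u ^ (p ^ N) ∈ H`
  have hexp : ∀ u : (ZMod M)ˣ, u ^ (p ^ N) ∈ H := by
    intro u
    obtain ⟨g, rfl⟩ := twe_fz_dUnit_surjective M u
    have h1 : ((g ^ (p ^ N) : Gamma0 M) : SL(2, ℤ)) ∈ twe_GamH M H := by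
      rw [twe_fz_mem_GamH_iff_d H d hker, map_pow, hΔ]
    rw [twe_fz_mem_GamH_iff, map_pow] at h1
    exact h1
  obtain ⟨ι', hι', γ, n, hγ, hb⟩ := twe_fz_exists_basis p N Δ hΔ
  have : FiniteDimensional k ↥(twe_wl_V k k (twe_GamH M H)) := twe_wl_finite_V (twe_GamH M H)
  have : FiniteDimensional k ↥(twe_wl_V k k (Gamma0 M)) := twe_wl_finite_V (Gamma0 M)
  set S := twe_fz_totW h2 ℓ hM hinj H hneg s hs hr hbij with hS
  set ρ := twe_fz_rhoΔ H d hd hker k with hρ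
  have hρg : ∀ g : Gamma0 M, ρ (d g) = twe_wl_conj H g := twe_fz_rhoΔ_apply H d hd hker
  have hρT : ∀ δ i z, ρ δ (S.T' i z) = S.T' i (ρ δ z) := by
    intro δ i z
    obtain ⟨g, rfl⟩ := hd δ
    rw [hρg]
    exact twe_wl_T_conj (hM i) H (s i) (hs i) g z
  have hnorm : ∀ z, S.res (S.cor z) = ∑ δ : Δ, ρ δ z := by
    intro z
    have h1 : S.res (S.cor z) = ∑ i, twe_wl_conj H (⟨r i, hr i⟩ : Gamma0 M) z :=
      twe_fz_norm H r hr hbij z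
    rw [h1]
    refine Fintype.sum_bijective (fun i : ι => d ⟨r i, hr i⟩)
      (twe_fz_rep_bijective H d hd hker hr hbij) _ _ fun i => ?_
    rw [hρg]
  have hinvg : ∀ z, (∀ δ, ρ δ z = z) ↔ ∀ g : Gamma0 M, twe_wl_conj H g z = z := by
    intro z
    constructor
    · intro h g
      rw [← hρg]
      exact h (d g)
    · intro h δ
      obtain ⟨g, rfl⟩ := hd δ
      rw [hρg]
      exact h g
  have hinv : ∀ z ∈ twe_fa_loc S.T' a, (∀ δ, ρ δ z = z) → ∃ x ∈ twe_fa_loc S.T a, S.res x = z :=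
    fun z hz h => m59epw_fz_hinv ℓ hM hinj H s hs p N hexp hPE a i₀ hne hz ((hinvg z).1 h)
  obtain ⟨m1, m2, m3, m4, m5⟩ := twe_ft_main p S a i₀ hne ρ γ n hγ hb hρT hnorm hinv
  refine ⟨m1, m2, fun x hx => ⟨(m3 x hx).1, (hinvg _).1 (m3 x hx).2⟩,
    fun z hz h => hinv z hz ((hinvg z).2 h), m4, fun z hz h0 => ?_⟩
  have h6 := m5 z hz h0
  refine Submodule.span_mono ?_ h6
  rintro w ⟨δ, u, hu, rfl⟩
  obtain ⟨g, rfl⟩ := hd δ
  exact ⟨g, u, hu, by rw [hρg]⟩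

end main

section mainrep

variable {k : Type} [Field k] (h2 : (2 : k) ≠ 0) {M : ℕ} [NeZero M] {L : Type*} (ℓ : L → ℕ)
  [hℓ : ∀ i, Fact (ℓ i).Prime] (hM : ∀ i, ¬ ℓ i ∣ M) (hinj : Function.Injective ℓ)
  (H : Subgroup (ZMod M)ˣ) (hneg : (-1 : (ZMod M)ˣ) ∈ H) (s : L → Gamma0 M)
  (hs : ∀ i, twe_dUnit M (s i) * twe_dUnit M (s i) * (twe_hk_lU (hM i))⁻¹ ∈ H)

set_option maxHeartbeats 1600000 in
set_option maxSynthPendingDepth 3 in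
include h2 hinj hneg in
/-- **E/Free at the `k`-level, in the shape consumed by `twe_fo_abs`** (given that the transfer
intertwines the Hecke operators, which is obtained over `𝒪` and reduced): the localisation
`W(Γ_H, k)_a` with its `Δ`-action `ρbar` and the transfer `cbar` onto `W(Γ₀(M), k)_a`. -/
theorem m59epw_fz_main_rep (p N : ℕ) [Fact p.Prime] [CharP k p]
    (hPE : ∀ γ : SL(2, ℤ), γ ∈ Gamma0 M → lrpd_tr γ ^ 2 ≤ 4 → γ ∈ twe_GamH M H) (a : L → k) (i₀ : L)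
    (hne : a i₀ ≠ ((ℓ i₀ + 1 : ℕ) : k))
    {Δ : Type*} [CommGroup Δ] [Fintype Δ] (d : Gamma0 M →* Δ) (hd : Function.Surjective d)
    (hker : d.ker = twe_GamH' M H) (hΔ : ∀ δ : Δ, δ ^ (p ^ N) = 1)
    {ι : Type} [Fintype ι] {r : ι → SL(2, ℤ)} (hr : ∀ i, r i ∈ Gamma0 M)
    (hbij : ∀ γ ∈ Gamma0 M, ∃! i, (r i)⁻¹ * γ ∈ twe_GamH M H)
    (hcorT : ∀ i z, twe_wl_cor hr hbij (twe_wl_T (R := k) (A := k) (hM i) H (s i) (hs i) z) =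
      twe_wl_T0 (hM i) (twe_wl_cor hr hbij z)) :
    ∃ (ρbar : Representation k Δ ↥(twe_fz_locH ℓ hM H s hs a))
      (cbar : ↥(twe_fz_locH ℓ hM H s hs a) →ₗ[k] ↥(twe_fz_loc0 (k := k) ℓ hM a)),
      (∀ (g : Gamma0 M) (z : ↥(twe_fz_locH ℓ hM H s hs a)),
        ((ρbar (d g) z : ↥(twe_fz_locH ℓ hM H s hs a)) : ↥(twe_wl_V k k (twe_GamH M H))) =
          twe_wl_conj H g z.1) ∧
      (∀ z : ↥(twe_fz_locH ℓ hM H s hs a),
        ((cbar z : ↥(twe_fz_loc0 (k := k) ℓ hM a)) : ↥(twe_wl_V k k (Gamma0 M))) =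
          twe_wl_cor hr hbij z.1) ∧
      finrank k ↥(twe_fz_locH ℓ hM H s hs a) =
        Fintype.card Δ * finrank k ↥(twe_fz_loc0 (k := k) ℓ hM a) ∧
      Function.Surjective cbar ∧
      LinearMap.ker cbar ≤ ⨆ δ : Δ, LinearMap.range
        (ρbar δ - 1) := by
  obtain ⟨m1, m2, m3, -, m5, m6⟩ := m59epw_fz_main h2 ℓ hM hinj H hneg s hs p N hPE a i₀ hne d hd hker
    hΔ hr hbij
  set T' : L → Module.End k ↥(twe_wl_V k k (twe_GamH M H)) :=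
    fun i => twe_wl_T (R := k) (A := k) (hM i) H (s i) (hs i) with hT'
  set T0 : L → Module.End k ↥(twe_wl_V k k (Gamma0 M)) :=
    fun i => twe_wl_T0 (R := k) (A := k) (hM i) with hT0
  have hcorT' : ∀ i z, twe_wl_cor hr hbij (T' i z) = T0 i (twe_wl_cor hr hbij z) := hcorT
  set ρ := twe_fz_rhoΔ H d hd hker k with hρ
  have hρg : ∀ g : Gamma0 M, ρ (d g) = twe_wl_conj H g := twe_fz_rhoΔ_apply H d hd hker
  have hρT : ∀ δ i z, ρ δ (T' i z) = T' i (ρ δ z) := by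
    intro δ i z
    obtain ⟨g, rfl⟩ := hd δ
    rw [hρg]
    exact twe_wl_T_conj (hM i) H (s i) (hs i) g z
  have hcor : ∀ z ∈ twe_fa_loc T' a, twe_wl_cor hr hbij z ∈ twe_fa_loc T0 a := fun z hz =>
    twe_fa_map_loc (twe_wl_cor hr hbij) T' T0 hcorT' a hz
  refine ⟨twe_ft_rhoA T' a ρ hρT, (twe_wl_cor hr hbij).restrict hcor, ?_, ?_, m1, ?_, ?_⟩
  · intro g z
    rw [twe_ft_rhoA_coe, hρg]
  · intro z
    rfl
  · intro y
    obtain ⟨z, hz, hzy⟩ := m5 y y.2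
    refine ⟨⟨z, hz⟩, Subtype.ext ?_⟩
    rw [LinearMap.coe_restrict_apply]
    have h1 : twe_wl_cor hr hbij z - y.1 ∈ twe_fa_loc T0 a :=
      Submodule.sub_mem _ (hcor z hz) y.2
    have h2' := m2 _ h1 (by rw [map_sub, hzy, sub_self])
    exact sub_eq_zero.1 h2'
  · intro z hz
    have h0 : twe_wl_cor hr hbij z.1 = 0 := by
      have := congrArg Subtype.val (LinearMap.mem_ker.1 hz)
      rwa [LinearMap.coe_restrict_apply] at this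
    have h1 := m6 z.1 z.2 (by rw [h0, map_zero])
    have hle : Submodule.span k {w | ∃ g : Gamma0 M, ∃ u ∈ twe_fa_loc T' a,
        w = twe_wl_conj H g u - u} ≤
        (⨆ δ : Δ, LinearMap.range (twe_ft_rhoA T' a ρ hρT δ - 1)).map (twe_fa_loc T' a).subtype := by
      rw [Submodule.span_le]
      rintro w ⟨g, u, hu, rfl⟩
      refine ⟨(twe_ft_rhoA T' a ρ hρT (d g) - 1) ⟨u, hu⟩,
        Submodule.mem_iSup_of_mem (d g) (LinearMap.mem_range_self _ _), ?_⟩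
      rw [LinearMap.sub_apply, Module.End.one_apply, Submodule.subtype_apply,
        Submodule.coe_sub, twe_ft_rhoA_coe, hρg]
    obtain ⟨z', hz', hz'z⟩ := hle h1
    have : z' = z := Subtype.ext hz'z
    rw [← this]
    exact hz'

end mainrep

open IsLocalRing

section kinput

variable {M : ℕ}

variable {k : Type} [Field k] (h2 : (2 : k) ≠ 0) [NeZero M] (H : Subgroup (ZMod M)ˣ)
  (hneg : (-1 : SL(2, ℤ)) ∈ twe_GamH M H)
  {Δ : Type*} [CommGroup Δ] [Fintype Δ] (d : Gamma0 M →* Δ) (hd : Function.Surjective d)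
  (hdk : ∀ g, d g = 1 ↔ (g : SL(2, ℤ)) ∈ twe_GamH M H)
  (p N : ℕ) [Fact p.Prime] [CharP k p] (hΔ : ∀ δ : Δ, δ ^ (p ^ N) = 1)
  (hPE : ∀ γ : SL(2, ℤ), γ ∈ Gamma0 M → lrpd_tr γ ^ 2 ≤ 4 → γ ∈ twe_GamH M H)
  {L : Type*} (ℓ : L → ℕ) [hℓ : ∀ i, Fact (ℓ i).Prime] (hM : ∀ i, ¬ ℓ i ∣ M)
  (hinj : Function.Injective ℓ) (s : L → Gamma0 M)
  (hs : ∀ i, twe_dUnit M (s i) * twe_dUnit M (s i) * (twe_hk_lU (hM i))⁻¹ ∈ H)
  (abar : L → k) (i₀ : L) (hne : abar i₀ ≠ ((ℓ i₀ + 1 : ℕ) : k))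
  {ι : Type} [Fintype ι] {ρc : ι → SL(2, ℤ)} (hρ : ∀ i, ρc i ∈ Gamma0 M)
  (hbij : ∀ γ ∈ Gamma0 M, ∃! i, (ρc i)⁻¹ * γ ∈ twe_GamH M H)

include h2 hneg hd hdk hΔ hPE hinj hne in
/-- **the `k`-level input of E/Free.** -/
theorem m59epw_fk_KInput : twe_fo_KInput k H ℓ hM s hs abar hρ hbij := by
  have hker : d.ker = twe_GamH' M H := twe_fk_ker_eq d hdk
  obtain ⟨m1, m2, -, -, m5, m6⟩ := m59epw_fz_main h2 ℓ hM hinj H (twe_fk_neg_one_mem hneg) s hs p N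
    hPE abar i₀ hne d hd hker hΔ hρ hbij
  have hcard : Fintype.card ι = Fintype.card Δ :=
    Fintype.card_of_bijective (twe_fz_rep_bijective H d hd hker hρ hbij)
  refine ⟨?_, m2, m5, m6⟩
  rw [hcard]
  exact m1

end kinput

section kmain

variable {𝒪 : Type} [CommRing 𝒪] [IsDomain 𝒪] [IsDiscreteValuationRing 𝒪]
  [IsAdicComplete (maximalIdeal 𝒪) 𝒪] [CharZero 𝒪]

/-- **E/Free over `𝒪`, concrete form, the `k`-level input discharged.** -/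
theorem m59epw_fk_main {M : ℕ} [NeZero M] (H : Subgroup (ZMod M)ˣ)
    (hneg : (-1 : SL(2, ℤ)) ∈ twe_GamH M H)
    (hPE : ∀ γ : SL(2, ℤ), γ ∈ Gamma0 M → lrpd_tr γ ^ 2 ≤ 4 → γ ∈ twe_GamH M H)
    {Δ : Type*} [CommGroup Δ] [Fintype Δ] (d : Gamma0 M →* Δ) (hd : Function.Surjective d)
    (hdk : ∀ g, d g = 1 ↔ (g : SL(2, ℤ)) ∈ twe_GamH M H)
    {p n : ℕ} (hp : p.Prime) (hp2 : p ≠ 2) (hpO : (p : 𝒪) ∈ maximalIdeal 𝒪)
    (hΔ : ∀ δ : Δ, δ ^ (p ^ n) = 1)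
    {L : Type*} (ℓ : L → ℕ) [hℓ : ∀ i, Fact (ℓ i).Prime] (hM : ∀ i, ¬ ℓ i ∣ M)
    (hinj : Function.Injective ℓ) (s : L → Gamma0 M)
    (hs : ∀ i, twe_dUnit M (s i) * twe_dUnit M (s i) * (twe_hk_lU (hM i))⁻¹ ∈ H)
    (a : L → 𝒪) (i₀ : L)
    (hne : residue 𝒪 (a i₀) ≠ ((ℓ i₀ + 1 : ℕ) : ResidueField 𝒪))
    {ι : Type} [Fintype ι] {ρc : ι → SL(2, ℤ)} (hρ : ∀ i, ρc i ∈ Gamma0 M)
    (hbij : ∀ γ ∈ Gamma0 M, ∃! i, (ρc i)⁻¹ * γ ∈ twe_GamH M H) :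
    (∀ i z, twe_wl_cor hρ hbij (twe_fo_T' 𝒪 𝒪 ℓ hM H s hs i z) =
      twe_fo_T0 𝒪 𝒪 ℓ hM i (twe_wl_cor hρ hbij z)) ∧
    ∃ (r : ℕ) (v : Fin r → ↥(twe_pr_prim (twe_fo_T' 𝒪 𝒪 ℓ hM H s hs) a))
      (b : Basis (Δ × Fin r) 𝒪 ↥(twe_pr_prim (twe_fo_T' 𝒪 𝒪 ℓ hM H s hs) a)),
      (∀ g i, ((b (d g, i) : ↥(twe_pr_prim (twe_fo_T' 𝒪 𝒪 ℓ hM H s hs) a)) :
        ↥(twe_wl_V 𝒪 𝒪 (twe_GamH M H))) = twe_wl_conj H g (v i).1) ∧
      (∀ y ∈ twe_pr_prim (twe_fo_T0 𝒪 𝒪 ℓ hM) a,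
        ∃ z ∈ twe_pr_prim (twe_fo_T' 𝒪 𝒪 ℓ hM H s hs) a, twe_wl_cor hρ hbij z = y) ∧
      (∀ z ∈ twe_pr_prim (twe_fo_T' 𝒪 𝒪 ℓ hM H s hs) a, twe_wl_cor (R := 𝒪) hρ hbij z = 0 →
        z ∈ Submodule.span 𝒪 {w | ∃ g : Gamma0 M,
          ∃ u ∈ twe_pr_prim (twe_fo_T' 𝒪 𝒪 ℓ hM H s hs) a, w = twe_wl_conj H g u - u}) ∧
      Module.Finite 𝒪 ↥(twe_pr_prim (twe_fo_T0 𝒪 𝒪 ℓ hM) a) ∧
      Module.Free 𝒪 ↥(twe_pr_prim (twe_fo_T0 𝒪 𝒪 ℓ hM) a) ∧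
      finrank 𝒪 ↥(twe_pr_prim (twe_fo_T0 𝒪 𝒪 ℓ hM) a) = r := by
  have : Fact p.Prime := ⟨hp⟩
  have hpk : ((p : ℕ) : ResidueField 𝒪) = 0 := by
    have h1 : residue 𝒪 (p : 𝒪) = 0 := (residue_eq_zero_iff _).mpr hpO
    rwa [map_natCast] at h1
  have : CharP (ResidueField 𝒪) p := (CharP.charP_iff_prime_eq_zero hp).2 hpk
  have h2 : (2 : ResidueField 𝒪) ≠ 0 := by
    have := CharP.cast_ne_zero_of_ne_of_prime (R := ResidueField 𝒪) (p := p) Nat.prime_two hp2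
    exact_mod_cast this
  exact twe_fo_main H hneg d hd hdk hp hpO hΔ ℓ hM hinj s hs a hρ hbij
    (m59epw_fk_KInput h2 H hneg d hd hdk p n hΔ hPE ℓ hM hinj s hs (fun i => residue 𝒪 (a i)) i₀ hne
      hρ hbij)

end kmain
section krmain

variable {𝒪 : Type} [CommRing 𝒪] [IsDomain 𝒪] [IsDiscreteValuationRing 𝒪]
  [IsAdicComplete (maximalIdeal 𝒪) 𝒪] [CharZero 𝒪]

/-- **E/Free over `𝒪`, relative form, unconditional**: for `H'' ≤ H'` (both of `p`-power index in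
`(ℤ/M)ˣ`, `p` odd, containing the `12 M`-torsion), a non-Eisenstein system `a`: the transfer
`cor₂ : prim W(Γ_{H''}, 𝒪) → prim W(Γ_{H'}, 𝒪)` is onto and its kernel is spanned by the
`⟨g⟩ u - u`, `g ∈ Γ_{H'}`. -/
theorem m59epw_fkr_main {M : ℕ} [NeZero M] {H'' H' : Subgroup (ZMod M)ˣ} (h : H'' ≤ H')
    (hneg : (-1 : SL(2, ℤ)) ∈ twe_GamH M H'')
    (hPE : ∀ γ : SL(2, ℤ), γ ∈ Gamma0 M → lrpd_tr γ ^ 2 ≤ 4 → γ ∈ twe_GamH M H'')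
    {Δ'' Δ' : Type*} [CommGroup Δ''] [Fintype Δ''] [CommGroup Δ'] [Fintype Δ']
    (d'' : Gamma0 M →* Δ'') (hd'' : Function.Surjective d'')
    (hdk'' : ∀ g, d'' g = 1 ↔ (g : SL(2, ℤ)) ∈ twe_GamH M H'')
    (d' : Gamma0 M →* Δ') (hd' : Function.Surjective d')
    (hdk' : ∀ g, d' g = 1 ↔ (g : SL(2, ℤ)) ∈ twe_GamH M H')
    {p n : ℕ} (hp : p.Prime) (hp2 : p ≠ 2) (hpO : (p : 𝒪) ∈ maximalIdeal 𝒪)
    (hΔ'' : ∀ δ : Δ'', δ ^ (p ^ n) = 1) (hΔ' : ∀ δ : Δ', δ ^ (p ^ n) = 1)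
    {L : Type*} (ℓ : L → ℕ) [hℓ : ∀ i, Fact (ℓ i).Prime] (hM : ∀ i, ¬ ℓ i ∣ M)
    (hinj : Function.Injective ℓ) (s : L → Gamma0 M)
    (hs : ∀ i, twe_dUnit M (s i) * twe_dUnit M (s i) * (twe_hk_lU (hM i))⁻¹ ∈ H'')
    (a : L → 𝒪) (i₀ : L)
    (hne : residue 𝒪 (a i₀) ≠ ((ℓ i₀ + 1 : ℕ) : ResidueField 𝒪))
    {ι' ι'' : Type} [Fintype ι'] [Fintype ι''] {ρ' : ι' → SL(2, ℤ)} {ρ'' : ι'' → SL(2, ℤ)}
    (hρ' : ∀ i, ρ' i ∈ Gamma0 M) (hbij' : ∀ γ ∈ Gamma0 M, ∃! i, (ρ' i)⁻¹ * γ ∈ twe_GamH M H')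
    (hρ'' : ∀ j, ρ'' j ∈ twe_GamH M H')
    (hbij'' : ∀ γ ∈ twe_GamH M H', ∃! j, (ρ'' j)⁻¹ * γ ∈ twe_GamH M H'') :
    (∀ y ∈ twe_pr_prim (twe_fo_T' 𝒪 𝒪 ℓ hM H' s (fun i => h (hs i))) a,
      ∃ z ∈ twe_pr_prim (twe_fo_T' 𝒪 𝒪 ℓ hM H'' s hs) a, twe_wl_cor hρ'' hbij'' z = y) ∧
    (∀ z ∈ twe_pr_prim (twe_fo_T' 𝒪 𝒪 ℓ hM H'' s hs) a,
      twe_wl_cor (R := 𝒪) hρ'' hbij'' z = 0 →
      z ∈ Submodule.span 𝒪 {w | ∃ g : Gamma0 M, (g : SL(2, ℤ)) ∈ twe_GamH M H' ∧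
        ∃ u ∈ twe_pr_prim (twe_fo_T' 𝒪 𝒪 ℓ hM H'' s hs) a, w = twe_wl_conj H'' g u - u}) := by
  have : Fact p.Prime := ⟨hp⟩
  have hpk : ((p : ℕ) : ResidueField 𝒪) = 0 := by
    have h1 : residue 𝒪 (p : 𝒪) = 0 := (residue_eq_zero_iff _).mpr hpO
    rwa [map_natCast] at h1
  have : CharP (ResidueField 𝒪) p := (CharP.charP_iff_prime_eq_zero hp).2 hpk
  have h2 : (2 : ResidueField 𝒪) ≠ 0 := by
    have := CharP.cast_ne_zero_of_ne_of_prime (R := ResidueField 𝒪) (p := p) Nat.prime_two hp2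
    exact_mod_cast this
  have hneg' : (-1 : SL(2, ℤ)) ∈ twe_GamH M H' := twe_GamH_mono h hneg
  have hPE' : ∀ γ : SL(2, ℤ), γ ∈ Gamma0 M → lrpd_tr γ ^ 2 ≤ 4 → γ ∈ twe_GamH M H' :=
    fun γ hγ htr => twe_GamH_mono h (hPE γ hγ htr)
  exact twe_for_main h hneg d'' hd'' hdk'' d' hd' hdk' hp hpO hΔ'' hΔ' ℓ hM hinj s hs a
    hρ' hbij' hρ'' hbij''
    (m59epw_fk_KInput h2 H' hneg' d' hd' hdk' p n hΔ' hPE' ℓ hM hinj s (fun i => h (hs i))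
      (fun i => residue 𝒪 (a i)) i₀ hne hρ' hbij')
    (m59epw_fk_KInput h2 H'' hneg d'' hd'' hdk'' p n hΔ'' hPE ℓ hM hinj s hs
      (fun i => residue 𝒪 (a i)) i₀ hne
      (twe_ct_mem (twe_GamH_le M H') hρ' hρ'')
      (twe_ct_bij (twe_GamH_mono h) hρ' hbij' hρ'' hbij''))

end krmain

end Fermat.Agent.M59
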