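/-
Project M59 (S59), block [E'] (architect helper3), cell [EP-TWIN] (helper5 + helper22), tag `m59epw_`.
Twin of `TW/Aut/SeamMod.lean` (helper3): `m59epw_smod_total` = `twe_smod_total` with the hypothesis
`h12` replaced by `hPE` (every `γ ∈ Γ₀(M)` with `tr² ≤ 4` lies in `Γ_H`), through `m59epw_fk_main`.
Same proof.  Everything else of `SeamMod.lean` is `p`-free and is used from main.
-/
import Mathlib
import Fermat.Agent.TW.Aut.SeamMod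
import Fermat.Agent.M59.EP.Twin.FreePE

set_option autoImplicit false
set_option linter.unusedSectionVars false
set_option linter.unusedVariables false

namespace Fermat.Agent.M59

open Polynomial CuspForm IsLocalRing Fermat.Agent.JT3 CongruenceSubgroup Fermat.Agent.TW
open scoped MatrixGroups

noncomputable section

section free

variable {𝒪 : Type} [CommRing 𝒪] [IsDomain 𝒪] [IsDiscreteValuationRing 𝒪]
  [IsAdicComplete (maximalIdeal 𝒪) 𝒪] [CharZero 𝒪]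
  {M : ℕ} [NeZero M] {H : Subgroup (ZMod M)ˣ} {I : Type*} {q : I → ℕ}
  {Δ : Type} [CommGroup Δ] [Fintype Δ] (d : Gamma0 M →* Δ) (hd : Function.Surjective d)
  (hdk : ∀ g, d g = 1 ↔ (g : SL(2, ℤ)) ∈ twe_GamH M H)


/-- **E/Free in the vocabulary of E/Seam**: the orbit basis of `P = prim W(Γ_H, 𝒪)`, and the total
transfer `P → P₀ = prim W(Γ₀(M), 𝒪)`: surjective, kernel the augmentation submodule, equivariant. -/
theorem m59epw_smod_total (F : twe_sm_Frame M H q) (hinj : Function.Injective q) (a : I → 𝒪)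
    (hneg : (-1 : SL(2, ℤ)) ∈ twe_GamH M H)
    (hPE : ∀ γ : SL(2, ℤ), γ ∈ Gamma0 M → Fermat.Agent.LR.lrpd_tr γ ^ 2 ≤ 4 → γ ∈ twe_GamH M H)
    {p n : ℕ} (hp : p.Prime) (hp2 : p ≠ 2) (hpO : (p : 𝒪) ∈ maximalIdeal 𝒪)
    (hΔ : ∀ δ : Δ, δ ^ (p ^ n) = 1) (i₀ : I)
    (hne : residue 𝒪 (a i₀) ≠ ((q i₀ + 1 : ℕ) : ResidueField 𝒪)) :
    ∃ (r : ℕ) (v : Fin r → ↥(twe_pr_prim (twe_sm_TY 𝒪 F) a))
      (b : Module.Basis (Δ × Fin r) 𝒪 ↥(twe_pr_prim (twe_sm_TY 𝒪 F) a))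
      (cor : ↥(twe_pr_prim (twe_sm_TY 𝒪 F) a) →ₗ[𝒪]
        ↥(twe_pr_prim (twe_br_T0fam (𝒪 := 𝒪) q F.hq F.hM) a)),
      (∀ δ i, b (δ, i) = twe_smod_rho d hd hdk F a δ (v i)) ∧
      Function.Surjective cor ∧
      LinearMap.ker cor = twe_smod_aug (P := ↥(twe_pr_prim (twe_sm_TY 𝒪 F) a))
        (twe_smod_rho d hd hdk F a) ∧
      (∀ (i : I) (y y' : ↥(twe_pr_prim (twe_sm_TY 𝒪 F) a)),
        (y' : ↥(twe_wl_V 𝒪 𝒪 (twe_GamH M H))) = twe_sm_TY 𝒪 F i y →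
        ((cor y' : ↥(twe_pr_prim (twe_br_T0fam (𝒪 := 𝒪) q F.hq F.hM) a)) :
          ↥(twe_wl_V 𝒪 𝒪 (Gamma0 M))) = twe_br_T0fam (𝒪 := 𝒪) q F.hq F.hM i (cor y)) ∧
      Module.Finite 𝒪 ↥(twe_pr_prim (twe_br_T0fam (𝒪 := 𝒪) q F.hq F.hM) a) ∧
      Module.Free 𝒪 ↥(twe_pr_prim (twe_br_T0fam (𝒪 := 𝒪) q F.hq F.hM) a) ∧
      Module.finrank 𝒪 ↥(twe_pr_prim (twe_br_T0fam (𝒪 := 𝒪) q F.hq F.hM) a) = r := by
  haveI := F.hq
  have main : (∀ i z, twe_wl_cor (twe_smod_rep_mem d hd) (twe_smod_rep_bij d hd hdk)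
        (twe_sm_TY 𝒪 F i z) = twe_br_T0fam (𝒪 := 𝒪) q F.hq F.hM i
          (twe_wl_cor (twe_smod_rep_mem d hd) (twe_smod_rep_bij d hd hdk) z)) ∧
      ∃ (r : ℕ) (v : Fin r → ↥(twe_pr_prim (twe_sm_TY 𝒪 F) a))
        (b : Module.Basis (Δ × Fin r) 𝒪 ↥(twe_pr_prim (twe_sm_TY 𝒪 F) a)),
        (∀ g i, ((b (d g, i) : ↥(twe_pr_prim (twe_sm_TY 𝒪 F) a)) :
          ↥(twe_wl_V 𝒪 𝒪 (twe_GamH M H))) = twe_wl_conj H g (v i).1) ∧
        (∀ y ∈ twe_pr_prim (twe_br_T0fam (𝒪 := 𝒪) q F.hq F.hM) a,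
          ∃ z ∈ twe_pr_prim (twe_sm_TY 𝒪 F) a,
            twe_wl_cor (twe_smod_rep_mem d hd) (twe_smod_rep_bij d hd hdk) z = y) ∧
        (∀ z ∈ twe_pr_prim (twe_sm_TY 𝒪 F) a,
          twe_wl_cor (R := 𝒪) (twe_smod_rep_mem d hd) (twe_smod_rep_bij d hd hdk) z = 0 →
          z ∈ Submodule.span 𝒪 {w | ∃ g : Gamma0 M,
            ∃ u ∈ twe_pr_prim (twe_sm_TY 𝒪 F) a, w = twe_wl_conj H g u - u}) ∧
        Module.Finite 𝒪 ↥(twe_pr_prim (twe_br_T0fam (𝒪 := 𝒪) q F.hq F.hM) a) ∧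
        Module.Free 𝒪 ↥(twe_pr_prim (twe_br_T0fam (𝒪 := 𝒪) q F.hq F.hM) a) ∧
        Module.finrank 𝒪 ↥(twe_pr_prim (twe_br_T0fam (𝒪 := 𝒪) q F.hq F.hM) a) = r :=
    m59epw_fk_main (𝒪 := 𝒪) H hneg hPE d hd hdk hp hp2 hpO hΔ q F.hM hinj F.s F.hs a i₀ hne
      (twe_smod_rep_mem d hd) (twe_smod_rep_bij d hd hdk)
  obtain ⟨hcorT, r, v, b, hb, hsurj, hker, hfin, hfree, hrank⟩ := main
  obtain ⟨cor, hcor, hcs, hck⟩ := twe_smod_cor_abs (twe_pr_prim (twe_sm_TY 𝒪 F) a)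
    (twe_pr_prim (twe_br_T0fam (𝒪 := 𝒪) q F.hq F.hM) a)
    (twe_wl_cor (R := 𝒪) (twe_smod_rep_mem d hd) (twe_smod_rep_bij d hd hdk))
    (fun y hy => twe_pr_map_prim _ _ _ (fun i z => hcorT i z) a hy)
    (twe_smod_rho d hd hdk F a) d hd (fun g => twe_wl_conj (R := 𝒪) H g)
    (fun g y => twe_smod_rho_coe d hd hdk F a g y) hsurj hker
    (fun g z => twe_fo_cor_conj H (twe_smod_rep_mem d hd) (twe_smod_rep_bij d hd hdk) g z)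
  refine ⟨r, v, b, cor, ?_, hcs, hck, ?_, hfin, hfree, hrank⟩
  · intro δ i
    obtain ⟨g, rfl⟩ := hd δ
    apply Subtype.ext
    rw [hb g i, twe_smod_rho_coe]
  · intro i y y' hy'
    rw [hcor, hy', hcor]
    exact hcorT i y.1

end free

end

end Fermat.Agent.M59
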