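/-
Project M59 (S59), block [E'] (architect helper3), cell [EP-TWIN] (helper5 + helper22), tag `m59epw_`.
Twin of `TW/Aut/SeamLevelC.lean`: `m59epw_slc_tail`, `m59epw_slc_main` (the field group (r, v, b, hb, c, c_surjective, c_ker, c_hecke)).
Rule of the cell: the twin of main's `twe_X` is `m59epw_X`; `5 ≤ p` becomes `p ≠ 2`; `Squarefree N` and
`¬ p ∣ N` are dropped; `h12` becomes `hPE` (every `γ ∈ Γ₀(M)` with `tr² ≤ 4` lies in `Γ_H`).  Same proofs.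
-/
import Mathlib
import Fermat.Agent.TW.Aut.SeamLevelC
import Fermat.Agent.M59.EP.Twin.SeamMod
import Fermat.Agent.M59.EP.Twin.SeamCoinv
import Fermat.Agent.M59.EP.Twin.OldIterOne

set_option autoImplicit false
set_option linter.unusedSectionVars false
set_option linter.unusedVariables false
set_option linter.style.haveILetI false
set_option synthInstance.maxHeartbeats 400000
set_option maxHeartbeats 1000000

noncomputable section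

namespace Fermat.Agent.M59

open IsLocalRing Polynomial CuspForm Fermat.Agent.JT3 Fermat.Agent.LR CongruenceSubgroup Fermat.Agent.TW
open scoped MatrixGroups

variable {p : ℕ} [Fact p.Prime]
  {𝒪 : Type} [CommRing 𝒪] [IsDomain 𝒪] [IsDiscreteValuationRing 𝒪]
  [IsAdicComplete (maximalIdeal 𝒪) 𝒪] [Finite (ResidueField 𝒪)] [CharZero 𝒪]
  {N : ℕ} [NeZero N] {S : Finset ℕ} {θ : heckeAlgebra N 2 (↑S : Set ℕ) →+* ResidueField 𝒪}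


/-- **the tail** `prim W(Γ₀(M), 𝒪) ≃ (𝒪^d)^{2^|Q|}`, `M = N ∏_{t ∈ Q} t`: Bridge, then the iterated
E/Old isomorphism, then fullness of the base package. -/
theorem m59epw_slc_tail (hp2 : p ≠ 2) (hp𝒪 : (p : 𝒪) ∈ maximalIdeal 𝒪)
    (hpS : p ∈ S) (hNS : ∀ ℓ : ℕ, ℓ.Prime → ℓ ∣ N → ℓ ∈ S)
    (ρbar : ResidualGaloisRep (ResidueField 𝒪)) (hcompat : twt_Compat θ ρbar)
    (hirr : ρbar.IsAbsolutelyIrreducible)
    (B : twe_Base 𝒪 N S θ) (hfull : B.IsFull)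
    (Q : Finset ℕ) (hQS : ∀ t ∈ Q, t ∉ S) (hTW : twe_IsTWSet θ p Q)
    {I : Type} (q : I → ℕ) (hq : ∀ i, pk_Good N (S ∪ Q) (q i))
    (hqall : ∀ ℓ, pk_Good N (S ∪ Q) ℓ → ∃ i, q i = ℓ)
    (a : I → 𝒪)
    (ha : ∀ i, residue 𝒪 (a i) = θ (heckeAlgebra.T (hq i).1 (hq i).2.1
      (fun h => (hq i).2.2 (Finset.coe_subset.mpr Finset.subset_union_left h))))
    (M : ℕ) [NeZero M] (hM : M = N * ∏ t ∈ Q, t)
    (hqF : ∀ i, Fact (q i).Prime) (hqM : ∀ i, ¬ q i ∣ M) :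
    ∃ e₀ : ↥(twe_pr_prim (twe_br_T0fam (𝒪 := 𝒪) q hqF hqM) a) →ₗ[𝒪]
        (Fin (2 ^ Q.card) → Fin B.d → 𝒪),
      Function.Bijective e₀ ∧
      ∀ (i : I) (z y : ↥(twe_pr_prim (twe_br_T0fam (𝒪 := 𝒪) q hqF hqM) a)),
        (y : ↥(twe_wl_V 𝒪 𝒪 (Gamma0 M))) = twe_br_T0fam (𝒪 := 𝒪) q hqF hqM i z →
        ∀ k, e₀ y k = (B.j (B.H.π (heckeAlgebra.T (hq i).1 (hq i).2.1
          (fun h => (hq i).2.2 (Finset.coe_subset.mpr Finset.subset_union_left h))))).mulVec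
            (e₀ z k) := by
  classical
  set PT0 := twe_pr_prim (twe_br_T0fam (𝒪 := 𝒪) q hqF hqM) a with hPT0
  set br : ↥PT0 ≃ₗ[𝒪] ↥(twe_pr_prim (twe_sm_TX 𝒪 M q) a) := twe_br_primEquiv q hqF hqM a with hbr
  have hbr_coe : ∀ y : ↥PT0, ((br y : ↥(twe_pr_prim (twe_sm_TX 𝒪 M q) a)) : gh_H M →+ 𝒪) =
      twe_br_equiv 𝒪 𝒪 M y.1 := fun y => rfl
  obtain ⟨c₀, hc₀bij, hc₀T⟩ := m59epw_oio_oldIter p hp2 𝒪 hp𝒪 N S hpS hNS θ ρbar hcompat hirr Q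
    hQS hTW q hq hqall a ha M hM
  obtain ⟨e, he1, heT⟩ := m59epw_sc_primEquiv hp2 hp𝒪 hpS hNS ρbar hcompat hirr B hfull (S ∪ Q)
    Finset.subset_union_left q hq hqall a ha
  set e₀ : ↥PT0 →ₗ[𝒪] (Fin (2 ^ Q.card) → Fin B.d → 𝒪) :=
    ((e : ↥(twe_pr_prim (twe_sm_TX 𝒪 N q) a) →ₗ[𝒪] (Fin B.d → 𝒪)).compLeft (Fin (2 ^ Q.card))) ∘ₗ
      c₀ ∘ₗ (br : ↥PT0 →ₗ[𝒪] _) with he₀
  have he₀_apply : ∀ z k, e₀ z k = e (c₀ (br z) k) := fun z k => rfl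
  refine ⟨e₀, ⟨?_, ?_⟩, ?_⟩
  · -- injective
    intro z z' hzz'
    have h1 : c₀ (br z) = c₀ (br z') := by
      funext k
      have h2 := congrFun hzz' k
      rw [he₀_apply, he₀_apply] at h2
      exact e.injective h2
    exact br.injective (hc₀bij.1 h1)
  · -- surjective
    intro w
    obtain ⟨u, hu⟩ := hc₀bij.2 (fun k => e.symm (w k))
    refine ⟨br.symm u, ?_⟩
    funext k
    rw [he₀_apply, LinearEquiv.apply_symm_apply, hu, LinearEquiv.apply_symm_apply]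
  · -- Hecke equivariance
    intro i z y hyz k
    rw [he₀_apply, he₀_apply]
    have h2 : ((br y : ↥(twe_pr_prim (twe_sm_TX 𝒪 M q) a)) : gh_H M →+ 𝒪) =
        twe_sm_TX 𝒪 M q i ((br z : ↥(twe_pr_prim (twe_sm_TX 𝒪 M q) a)) : gh_H M →+ 𝒪) := by
      rw [hbr_coe, hbr_coe, hyz]
      exact twe_br_TX q hqF hqM i _
    have h3 := hc₀T i (br z) (br y) h2 k
    exact heT i _ _ h3

/-- **the orbit basis and the coinvariant map of the unipotent system**, in the vocabulary of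
`SeamMod.lean`: the field group `(r, v, b, hb, c, c_surjective, c_ker, c_hecke)` of
`twe_mk_LevelData`. -/
theorem m59epw_slc_main (hp2 : p ≠ 2) (hp𝒪 : (p : 𝒪) ∈ maximalIdeal 𝒪)
    (hpS : p ∈ S) (hNS : ∀ ℓ : ℕ, ℓ.Prime → ℓ ∣ N → ℓ ∈ S)
    (ρbar : ResidualGaloisRep (ResidueField 𝒪)) (hcompat : twt_Compat θ ρbar)
    (hirr : ρbar.IsAbsolutelyIrreducible)
    (B : twe_Base 𝒪 N S θ) (hfull : B.IsFull)
    (Q : Finset ℕ) [NeZero (twe_Nbal N Q ∅)] (hQS : ∀ t ∈ Q, t ∉ S) (hTW : twe_IsTWSet θ p Q)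
    (θ' : heckeAlgebra (twe_Nbal N Q ∅) 2 (↑(S ∪ Q) : Set ℕ) →+* ResidueField 𝒪)
    (θ'_eq : ∀ (ℓ : ℕ) (hℓ : ℓ.Prime) (h1 : ¬ ℓ ∣ twe_Nbal N Q ∅) (h2 : ℓ ∉ (↑(S ∪ Q) : Set ℕ))
      (h3 : ¬ ℓ ∣ N) (h4 : ℓ ∉ (↑S : Set ℕ)),
      θ' (heckeAlgebra.T hℓ h1 h2) = θ (heckeAlgebra.T hℓ h3 h4))
    (B' : twe_Base 𝒪 (twe_Nbal N Q ∅) (S ∪ Q) θ') (hfull' : B'.IsFull)
    (hNS' : ∀ ℓ : ℕ, ℓ.Prime → ℓ ∣ twe_Nbal N Q ∅ → ℓ ∈ S ∪ Q)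
    (π0 : B'.T →ₐ[𝒪] B.T)
    (π0_T : ∀ (ℓ : ℕ) (hℓ : ℓ.Prime) (h1 : ¬ ℓ ∣ twe_Nbal N Q ∅) (h2 : ℓ ∉ (↑(S ∪ Q) : Set ℕ))
      (h3 : ¬ ℓ ∣ N) (h4 : ℓ ∉ (↑S : Set ℕ)),
      π0 (B'.H.π (heckeAlgebra.T hℓ h1 h2)) = B.H.π (heckeAlgebra.T hℓ h3 h4))
    {M : ℕ} [NeZero M] (hM : M = N * ∏ t ∈ Q, t) {H : Subgroup (ZMod M)ˣ}
    (F : twe_sm_Frame M H (twe_sm_q (twe_Nbal N Q ∅) (S ∪ Q)))
    (a : twe_sm_Idx (twe_Nbal N Q ∅) (S ∪ Q) → 𝒪) (ha : twe_sm_IsLift θ' a)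
    (hrel : twe_at_Rel (twe_sm_TX 𝒪 (twe_Nbal N Q ∅) (twe_sm_q (twe_Nbal N Q ∅) (S ∪ Q)))
      (twe_sm_TY 𝒪 F))
    {Δ : Type} [CommGroup Δ] [Fintype Δ] (d : Gamma0 M →* Δ) (hd : Function.Surjective d)
    (hdk : ∀ g, d g = 1 ↔ (g : SL(2, ℤ)) ∈ twe_GamH M H)
    (hneg : (-1 : SL(2, ℤ)) ∈ twe_GamH M H)
    (hPE : ∀ γ : SL(2, ℤ), γ ∈ Gamma0 M → Fermat.Agent.LR.lrpd_tr γ ^ 2 ≤ 4 → γ ∈ twe_GamH M H)
    {n : ℕ} (hΔ : ∀ δ : Δ, δ ^ (p ^ n) = 1)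
    (i₀ : twe_sm_Idx (twe_Nbal N Q ∅) (S ∪ Q))
    (hne : residue 𝒪 (a i₀) ≠ ((i₀.1 + 1 : ℕ) : ResidueField 𝒪)) :
    ∃ (r : ℕ) (v : Fin r → ↥(twe_pr_prim (twe_sm_TY 𝒪 F) a))
      (b : Module.Basis (Δ × Fin r) 𝒪 ↥(twe_pr_prim (twe_sm_TY 𝒪 F) a))
      (c : ↥(twe_pr_prim (twe_sm_TY 𝒪 F) a) →ₗ[𝒪] (Fin (2 ^ Q.card) → Fin B.d → 𝒪)),
      (∀ δ i, b (δ, i) = twe_smod_rho d hd hdk F a δ (v i)) ∧
      Function.Surjective c ∧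
      LinearMap.ker c = twe_smod_aug (P := ↥(twe_pr_prim (twe_sm_TY 𝒪 F) a))
        (twe_smod_rho d hd hdk F a) ∧
      ∀ (x : B'.T) (m : ↥(twe_pr_prim (twe_sm_TY 𝒪 F) a)) (k : Fin (2 ^ Q.card)),
        c (twe_smod_psi B' hfull' hNS' F a ha hrel x m) k = (B.j (π0 x)).mulVec (c m k) := by
  classical
  have hQprime : ∀ t ∈ Q, t.Prime := fun t ht => (hTW t ht).1
  have hp : p.Prime := Fact.out
  -- the family of good primes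
  have hq : ∀ i, pk_Good N (S ∪ Q) (twe_sm_q (twe_Nbal N Q ∅) (S ∪ Q) i) :=
    fun i => twe_slc_good i.2
  have hqall : ∀ ℓ, pk_Good N (S ∪ Q) ℓ → ∃ i, twe_sm_q (twe_Nbal N Q ∅) (S ∪ Q) i = ℓ :=
    fun ℓ hℓ => ⟨⟨ℓ, twe_slc_good_all hQprime hℓ⟩, rfl⟩
  have haθ : ∀ i, residue 𝒪 (a i) = θ (heckeAlgebra.T (hq i).1 (hq i).2.1
      (fun h => (hq i).2.2 (Finset.coe_subset.mpr Finset.subset_union_left h))) := by
    intro i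
    rw [ha i]
    exact θ'_eq i.1 i.2.1 i.2.2.1 i.2.2.2 _ _
  -- E/Free: the orbit basis and the total transfer
  obtain ⟨r, v, b, cor, hb, hcs, hck, hcT, -, -, -⟩ := m59epw_smod_total (𝒪 := 𝒪) d hd hdk F
    Subtype.val_injective a hneg hPE hp hp2 hp𝒪 hΔ i₀ hne
  -- the tail
  obtain ⟨e₀, he₀bij, he₀T⟩ := m59epw_slc_tail hp2 hp𝒪 hpS hNS ρbar hcompat hirr B hfull Q hQS
    hTW (twe_sm_q (twe_Nbal N Q ∅) (S ∪ Q)) hq hqall a haθ M hM F.hq F.hM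
  have hsurj : Function.Surjective (e₀ ∘ₗ cor) := by
    intro w
    obtain ⟨y, hy⟩ := he₀bij.2 w
    obtain ⟨z, hz⟩ := hcs y
    exact ⟨z, by rw [LinearMap.comp_apply, hz, hy]⟩
  have hker : LinearMap.ker (e₀ ∘ₗ cor) = twe_smod_aug (P := ↥(twe_pr_prim (twe_sm_TY 𝒪 F) a))
      (twe_smod_rho d hd hdk F a) := by
    refine Eq.trans ?_ hck
    ext z
    rw [LinearMap.mem_ker, LinearMap.mem_ker, LinearMap.comp_apply]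
    constructor
    · intro h0
      exact he₀bij.1 (h0.trans (map_zero e₀).symm)
    · intro h0
      rw [h0, map_zero]
  refine ⟨r, v, b, e₀ ∘ₗ cor, hb, hsurj, hker, ?_⟩
  · -- Hecke equivariance
    refine twe_slc_ext (P := ↥(twe_pr_prim (twe_sm_TY 𝒪 F) a)) B (twe_sa_tau B')
      (twe_sa_gen B' hNS') π0 (twe_smod_psi B' hfull' hNS' F a ha hrel) (e₀ ∘ₗ cor) ?_
    intro ℓ m k
    rw [LinearMap.comp_apply, LinearMap.comp_apply]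
    have h1 := hcT ℓ m (twe_smod_psi B' hfull' hNS' F a ha hrel (twe_sa_tau B' ℓ) m)
      (twe_smod_psi_tau B' hfull' hNS' F a ha hrel ℓ m)
    have h2 := he₀T ℓ (cor m) (cor (twe_smod_psi B' hfull' hNS' F a ha hrel (twe_sa_tau B' ℓ) m))
      h1 k
    rw [h2]
    congr 2
    unfold twe_sa_tau
    exact (π0_T ℓ.1 ℓ.2.1 ℓ.2.2.1 ℓ.2.2.2 _ _).symm

end Fermat.Agent.M59
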