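/-
Project M59 (S59), block [E'] (architect helper3), cell [EP-TWIN] (helper5 + helper22), tag `m59epw_`,
new lemmas `m59epw_pe_*` (helper5): the hypothesis `hPE` of `M59/EP/Twin/FreePE.lean` for
`H = ker (twe_di_hom p P M …)` and `H = ker (twe_di_pair p Q Th M …)`.

* `m59epw_pe_hom_of_coprime`, `m59epw_pe_pair_of_coprime` : `Nat.Coprime 12 p` (i.e. `p ≥ 5`), ANY
  level `M` (`p ∣ M` allowed);
* `m59epw_pe_hom_of_rigid`, `m59epw_pe_pair_of_rigid` : `p` odd (e.g. `p = 3`) and ONE prime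
  `r ≡ 2 mod 3` dividing `M` (`r = 2` allowed; `p ∣ M` allowed; `M` not necessarily squarefree).

Proof: for `γ ∈ Γ₀(M)` with `tr² ≤ 4`, `d = d(γ)` satisfies `d² - tr·d + 1 = 0` modulo every prime
`t ∣ M`, hence `d¹² = 1` mod `t`; a prime `r ≡ 2 mod 3` in the level excludes `tr = ± 1`
(`x² + x + 1` has no root mod `r`), and then `d⁴ = 1` mod `t`.  An element of the `p`-group `Δ`
killed by an exponent prime to `p` is trivial.
-/
import Mathlib
import Fermat.Agent.TW.Aut.DeltaIso2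
import Fermat.Agent.LR.PD.SLevel

set_option autoImplicit false
set_option linter.style.haveILetI false

noncomputable section

open CongruenceSubgroup Matrix.SpecialLinearGroup
open scoped MatrixGroups

namespace Fermat.Agent.M59

open Fermat.Agent.TW Fermat.Agent.LR

section field

variable {F : Type*} [Field F]

theorem m59epw_pe_pow12 (d : F) (t : ℤ) (ht : t ^ 2 ≤ 4) (hd : d * d - (t : F) * d + 1 = 0) :
    d ^ 12 = 1 := by
  have ht' : t = 0 ∨ t = 1 ∨ t = -1 ∨ t = 2 ∨ t = -2 := by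
    have h1 : -2 ≤ t := by nlinarith
    have h2 : t ≤ 2 := by nlinarith
    omega
  rcases ht' with rfl | rfl | rfl | rfl | rfl
  · have h2 : d ^ 2 = -1 := by
      have : d * d + 1 = 0 := by simpa using hd
      linear_combination this
    calc d ^ 12 = (d ^ 2) ^ 6 := by ring
      _ = 1 := by rw [h2]; ring
  · have h2 : d * d - d + 1 = 0 := by simpa using hd
    have h3 : d ^ 3 = -1 := by linear_combination (d + 1) * h2
    calc d ^ 12 = (d ^ 3) ^ 4 := by ring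
      _ = 1 := by rw [h3]; ring
  · have h2 : d * d + d + 1 = 0 := by
      have : d * d - ((-1 : ℤ) : F) * d + 1 = 0 := hd
      push_cast at this
      linear_combination this
    have h3 : d ^ 3 = 1 := by linear_combination (d - 1) * h2
    calc d ^ 12 = (d ^ 3) ^ 4 := by ring
      _ = 1 := by rw [h3]; ring
  · have h2 : (d - 1) ^ 2 = 0 := by
      have : d * d - ((2 : ℤ) : F) * d + 1 = 0 := hd
      push_cast at this
      linear_combination this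
    have h3 : d = 1 := sub_eq_zero.1 (pow_eq_zero_iff two_ne_zero |>.1 h2)
    rw [h3, one_pow]
  · have h2 : (d + 1) ^ 2 = 0 := by
      have : d * d - ((-2 : ℤ) : F) * d + 1 = 0 := hd
      push_cast at this
      linear_combination this
    have h3 : d = -1 := eq_neg_of_add_eq_zero_left (pow_eq_zero_iff two_ne_zero |>.1 h2)
    rw [h3]; ring

theorem m59epw_pe_pow4 (d : F) (t : ℤ) (ht : t ^ 2 ≤ 4) (h1 : t ≠ 1) (h1' : t ≠ -1)
    (hd : d * d - (t : F) * d + 1 = 0) : d ^ 4 = 1 := by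
  have ht' : t = 0 ∨ t = 2 ∨ t = -2 := by
    have h1 : -2 ≤ t := by nlinarith
    have h2 : t ≤ 2 := by nlinarith
    omega
  rcases ht' with rfl | rfl | rfl
  · have h2 : d ^ 2 = -1 := by
      have : d * d + 1 = 0 := by simpa using hd
      linear_combination this
    calc d ^ 4 = (d ^ 2) ^ 2 := by ring
      _ = 1 := by rw [h2]; ring
  · have h2 : (d - 1) ^ 2 = 0 := by
      have : d * d - ((2 : ℤ) : F) * d + 1 = 0 := hd
      push_cast at this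
      linear_combination this
    have h3 : d = 1 := sub_eq_zero.1 (pow_eq_zero_iff two_ne_zero |>.1 h2)
    rw [h3, one_pow]
  · have h2 : (d + 1) ^ 2 = 0 := by
      have : d * d - ((-2 : ℤ) : F) * d + 1 = 0 := hd
      push_cast at this
      linear_combination this
    have h3 : d = -1 := eq_neg_of_add_eq_zero_left (pow_eq_zero_iff two_ne_zero |>.1 h2)
    rw [h3]; ring

end field

/-- no primitive cube root of unity modulo a prime `r ≡ 2 mod 3`. -/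
theorem m59epw_pe_no_root (r : ℕ) [hr : Fact r.Prime] (hr3 : r % 3 = 2) (x : ZMod r) :
    x * x + x + 1 ≠ 0 := by
  intro h
  have h3 : x ^ 3 = 1 := by linear_combination (x - 1) * h
  have hx0 : x ≠ 0 := by
    rintro rfl
    simp at h
  have hx1 : x ≠ 1 := by
    rintro rfl
    have h3' : ((3 : ℕ) : ZMod r) = 0 := by
      push_cast
      linear_combination h
    have := (ZMod.natCast_eq_zero_iff 3 r).1 h3'
    have hle := Nat.le_of_dvd (by norm_num) this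
    have h2 := hr.out.two_le
    interval_cases r <;> omega
  let u : (ZMod r)ˣ := Units.mk0 x hx0
  have hu3 : u ^ 3 = 1 := by
    apply Units.ext
    simp [u, h3]
  have hu1 : u ≠ 1 := by
    intro h1
    apply hx1
    have := congrArg Units.val h1
    simpa [u] using this
  have hord : orderOf u = 3 := orderOf_eq_prime hu3 hu1
  have hdvd : 3 ∣ Fintype.card (ZMod r)ˣ := hord ▸ orderOf_dvd_card
  rw [ZMod.card_units_eq_totient, Nat.totient_prime hr.out] at hdvd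
  have h2 := hr.out.two_le
  omega

section quad

variable {M : ℕ}

/-- the quadratic relation `d² - tr·d + 1 = 0` in `ℤ/M` for `γ ∈ Γ₀(M)`. -/
theorem m59epw_pe_quad {γ : SL(2, ℤ)} (hγ : γ ∈ Gamma0 M) :
    ((γ 1 1 : ℤ) : ZMod M) * ((γ 1 1 : ℤ) : ZMod M) -
      ((lrpd_tr γ : ℤ) : ZMod M) * ((γ 1 1 : ℤ) : ZMod M) + 1 = 0 := by
  have hc : ((γ 1 0 : ℤ) : ZMod M) = 0 := Gamma0_mem.mp hγ
  have hdet : γ 0 0 * γ 1 1 - γ 0 1 * γ 1 0 = 1 := by
    have := γ.det_coe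
    rw [Matrix.det_fin_two] at this
    exact this
  have hdet' : ((γ 0 0 : ℤ) : ZMod M) * ((γ 1 1 : ℤ) : ZMod M) = 1 := by
    have := congrArg (Int.cast : ℤ → ZMod M) hdet
    push_cast at this
    rw [hc, mul_zero, sub_zero] at this
    exact this
  unfold lrpd_tr
  push_cast
  linear_combination (-1 : ZMod M) * hdet'

/-- the same relation modulo a divisor `t` of `M`. -/
theorem m59epw_pe_quad_mod {γ : SL(2, ℤ)} (hγ : γ ∈ Gamma0 M) {t : ℕ} (ht : t ∣ M) :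
    ((γ 1 1 : ℤ) : ZMod t) * ((γ 1 1 : ℤ) : ZMod t) -
      ((lrpd_tr γ : ℤ) : ZMod t) * ((γ 1 1 : ℤ) : ZMod t) + 1 = 0 := by
  have h := congrArg (ZMod.castHom ht (ZMod t)) (m59epw_pe_quad hγ)
  rw [map_add, map_sub, map_mul, map_mul, map_one, map_zero, map_intCast, map_intCast] at h
  exact h

/-- a prime `r ≡ 2 mod 3` in the level kills the elliptic elements of order `3` and `6`. -/
theorem m59epw_pe_tr_ne {γ : SL(2, ℤ)} (hγ : γ ∈ Gamma0 M) {r : ℕ} (hr : r.Prime) (hrM : r ∣ M)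
    (hr3 : r % 3 = 2) : lrpd_tr γ ≠ 1 ∧ lrpd_tr γ ≠ -1 := by
  haveI : Fact r.Prime := ⟨hr⟩
  have h := m59epw_pe_quad_mod hγ hrM
  constructor
  · intro h1
    rw [h1] at h
    apply m59epw_pe_no_root r hr3 (-((γ 1 1 : ℤ) : ZMod r))
    push_cast at h
    linear_combination h
  · intro h1
    rw [h1] at h
    apply m59epw_pe_no_root r hr3 ((γ 1 1 : ℤ) : ZMod r)
    push_cast at h
    linear_combination h

end quad

section hom

variable (p : ℕ) (P : Finset ℕ) (M : ℕ) (hP : ∀ t ∈ P, t.Prime) (hPM : ∀ t ∈ P, t ∣ M)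

/-- an element of `Δ_P` killed by an exponent prime to `p` is trivial. -/
theorem m59epw_pe_delta_eq_one (k : ℕ) (hk : Nat.Coprime k p) (δ : twe_Delta p P) (h1 : δ ^ k = 1) :
    δ = 1 := by
  apply Multiplicative.toAdd.injective
  funext t
  have h2 := congrFun (congrArg Multiplicative.toAdd h1) t
  rw [toAdd_pow, toAdd_one, Pi.smul_apply, Pi.zero_apply, nsmul_eq_mul] at h2
  have hcop : Nat.Coprime k (twe_ord p (t : ℕ)) := Nat.Coprime.pow_right _ hk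
  have hunit : IsUnit ((k : ℕ) : ZMod (twe_ord p (t : ℕ))) := (ZMod.isUnit_iff_coprime _ _).2 hcop
  rw [toAdd_one, Pi.zero_apply]
  exact (hunit.mul_right_eq_zero).1 h2

/-- if `u ^ k ≡ 1` modulo every `t ∈ P`, `k` prime to `p`, then `u ∈ ker`. -/
theorem m59epw_pe_hom_of_pow_mod (k : ℕ) (hk : Nat.Coprime k p) (u : (ZMod M)ˣ)
    (hu : ∀ t : ↥P, ((ZMod.unitsMap (hPM t.1 t.2) u : (ZMod (t : ℕ))ˣ) : ZMod (t : ℕ)) ^ k = 1) :
    twe_di_hom p P M hP hPM u = 1 := by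
  apply m59epw_pe_delta_eq_one p P k hk
  rw [← map_pow]
  refine twe_di_hom_eq_one_of_unitsMap p P M hP hPM _ fun t => ?_
  apply Units.ext
  rw [map_pow, Units.val_pow_eq_pow_val, hu t, Units.val_one]

end hom

section homPE

variable (p : ℕ) (P : Finset ℕ) (M : ℕ) (hP : ∀ t ∈ P, t.Prime) (hPM : ∀ t ∈ P, t ∣ M)

theorem m59epw_pe_unitsMap_dUnit {t : ℕ} (ht : t ∣ M) (γ : Gamma0 M) :
    ((ZMod.unitsMap ht (twe_dUnit M γ) : (ZMod t)ˣ) : ZMod t) =
      ((((γ : SL(2, ℤ)) 1 1 : ℤ)) : ZMod t) := by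
  rw [ZMod.unitsMap_def, Units.coe_map, twe_dUnit_coe]
  simp

/-- `d(γ) ∈ ker (twe_di_hom)` for `tr² ≤ 4`, `p ≥ 5`. -/
theorem m59epw_pe_dUnit_of_coprime (h12 : Nat.Coprime 12 p) (γ : SL(2, ℤ)) (hγ : γ ∈ Gamma0 M)
    (htr : lrpd_tr γ ^ 2 ≤ 4) : twe_di_hom p P M hP hPM (twe_dUnit M ⟨γ, hγ⟩) = 1 := by
  refine m59epw_pe_hom_of_pow_mod p P M hP hPM 12 h12 _ fun t => ?_
  haveI : Fact (t : ℕ).Prime := ⟨hP t.1 t.2⟩
  rw [m59epw_pe_unitsMap_dUnit M (hPM t.1 t.2) ⟨γ, hγ⟩]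
  exact m59epw_pe_pow12 _ (lrpd_tr γ) htr (m59epw_pe_quad_mod hγ (hPM t.1 t.2))

/-- `d(γ) ∈ ker (twe_di_hom)` for `tr² ≤ 4`, `p` odd, a prime `r ≡ 2 mod 3` in the level. -/
theorem m59epw_pe_dUnit_of_rigid (hp : Odd p) {r : ℕ} (hr : r.Prime) (hrM : r ∣ M)
    (hr3 : r % 3 = 2) (γ : SL(2, ℤ)) (hγ : γ ∈ Gamma0 M) (htr : lrpd_tr γ ^ 2 ≤ 4) :
    twe_di_hom p P M hP hPM (twe_dUnit M ⟨γ, hγ⟩) = 1 := by
  obtain ⟨hne1, hne1'⟩ := m59epw_pe_tr_ne hγ hr hrM hr3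
  have h4 : Nat.Coprime 4 p := by
    have : Nat.Coprime 2 p := Nat.coprime_two_left.2 hp
    exact Nat.Coprime.pow_left 2 this
  refine m59epw_pe_hom_of_pow_mod p P M hP hPM 4 h4 _ fun t => ?_
  haveI : Fact (t : ℕ).Prime := ⟨hP t.1 t.2⟩
  rw [m59epw_pe_unitsMap_dUnit M (hPM t.1 t.2) ⟨γ, hγ⟩]
  exact m59epw_pe_pow4 _ (lrpd_tr γ) htr hne1 hne1' (m59epw_pe_quad_mod hγ (hPM t.1 t.2))

/-- **`hPE` for `H = ker (twe_di_hom)`, `p ≥ 5`**, ANY level. -/
theorem m59epw_pe_hom_of_coprime (h12 : Nat.Coprime 12 p) (γ : SL(2, ℤ)) (hγ : γ ∈ Gamma0 M)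
    (htr : lrpd_tr γ ^ 2 ≤ 4) : γ ∈ twe_GamH M (twe_di_hom p P M hP hPM).ker :=
  twe_mem_GamH.mpr ⟨hγ, MonoidHom.mem_ker.2 (m59epw_pe_dUnit_of_coprime p P M hP hPM h12 γ hγ htr)⟩

/-- **`hPE` for `H = ker (twe_di_hom)`, `p` odd, a prime `r ≡ 2 mod 3` in the level.** -/
theorem m59epw_pe_hom_of_rigid (hp : Odd p) {r : ℕ} (hr : r.Prime) (hrM : r ∣ M)
    (hr3 : r % 3 = 2) (γ : SL(2, ℤ)) (hγ : γ ∈ Gamma0 M) (htr : lrpd_tr γ ^ 2 ≤ 4) :
    γ ∈ twe_GamH M (twe_di_hom p P M hP hPM).ker :=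
  twe_mem_GamH.mpr ⟨hγ, MonoidHom.mem_ker.2
    (m59epw_pe_dUnit_of_rigid p P M hP hPM hp hr hrM hr3 γ hγ htr)⟩

end homPE

section pair

variable (p : ℕ) (Q Th : Finset ℕ) (M : ℕ) (hQ : ∀ t ∈ Q, t.Prime) (hQM : ∀ t ∈ Q, t ∣ M)
  (hTh : ∀ t ∈ Th, t.Prime) (hThM : ∀ t ∈ Th, t ∣ M)

/-- **`hPE` for `H = ker (twe_di_pair)`, `p ≥ 5`** (`Coprime 12 p`), ANY level (`p ∣ M` allowed). -/
theorem m59epw_pe_pair_of_coprime (h12 : Nat.Coprime 12 p) (γ : SL(2, ℤ)) (hγ : γ ∈ Gamma0 M)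
    (htr : lrpd_tr γ ^ 2 ≤ 4) : γ ∈ twe_GamH M (twe_di_pair p Q Th M hQ hQM hTh hThM).ker := by
  refine twe_mem_GamH.mpr ⟨hγ, ?_⟩
  rw [MonoidHom.mem_ker, twe_di_pair_apply, Prod.mk_eq_one]
  exact ⟨m59epw_pe_dUnit_of_coprime p Q M hQ hQM h12 γ hγ htr,
    m59epw_pe_dUnit_of_coprime p Th M hTh hThM h12 γ hγ htr⟩

/-- **`hPE` for `H = ker (twe_di_pair)`, every odd `p` (e.g. `p = 3`), as soon as one prime
`r ≡ 2 mod 3` divides the level** (`p ∣ M` allowed, `M` not necessarily squarefree). -/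
theorem m59epw_pe_pair_of_rigid (hp : Odd p) {r : ℕ} (hr : r.Prime) (hrM : r ∣ M) (hr3 : r % 3 = 2)
    (γ : SL(2, ℤ)) (hγ : γ ∈ Gamma0 M) (htr : lrpd_tr γ ^ 2 ≤ 4) :
    γ ∈ twe_GamH M (twe_di_pair p Q Th M hQ hQM hTh hThM).ker := by
  refine twe_mem_GamH.mpr ⟨hγ, ?_⟩
  rw [MonoidHom.mem_ker, twe_di_pair_apply, Prod.mk_eq_one]
  exact ⟨m59epw_pe_dUnit_of_rigid p Q M hQ hQM hp hr hrM hr3 γ hγ htr,
    m59epw_pe_dUnit_of_rigid p Th M hTh hThM hp hr hrM hr3 γ hγ htr⟩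

end pair

end Fermat.Agent.M59
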