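/-
Project M59 (S59), block [E'] (architect helper3), cell [EP-TWIN] (helper5 + helper22), tag `m59epw_`.
Twin of `TW/Aut/SeamLevelInst.lean`: `m59epw_sli_hPE` (NEW: `hPE` from `m59ep_Rigid p N`, `p` odd), `m59epw_sli_exists_i0`, `m59epw_sli_i0`, `m59epw_sli_i0_ne`, `m59epw_sli_data` and its `rfl` projections; main's `twe_sli_pi0`, `twe_sli_pi0_T`, `twe_sli_hQ`, `twe_sli_hNS'` are reused.
Rule of the cell: the twin of main's `twe_X` is `m59epw_X`; `5 ≤ p` becomes `p ≠ 2`; `Squarefree N` and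
`¬ p ∣ N` are dropped; `h12` becomes `hPE` (every `γ ∈ Γ₀(M)` with `tr² ≤ 4` lies in `Γ_H`).  Same proofs.
Extra binder: `(hrig : m59ep_Rigid p N)` right after `hp𝒪` (in place of `hsq hpN`).
-/
import Mathlib
import Fermat.Agent.TW.Aut.SeamLevelInst
import Fermat.Agent.M59.EP.Seams
import Fermat.Agent.M59.EP.Twin.PERigid
import Fermat.Agent.M59.EP.Twin.SeamLevelD

set_option autoImplicit false
set_option linter.unusedSectionVars false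
set_option linter.unusedVariables false
set_option linter.style.haveILetI false
set_option synthInstance.maxHeartbeats 400000
set_option maxHeartbeats 1000000

noncomputable section

namespace Fermat.Agent.M59

open IsLocalRing Polynomial CuspForm Fermat.Agent.JT3 Fermat.Agent.LR CongruenceSubgroup Fermat.Agent.TW
open scoped MatrixGroups
open Fermat.Agent.S56

/-- **`hPE` from rigidity**: `p` odd, `m59ep_Rigid p N` (a prime `r ≡ 2 mod 3` in the level when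
`p = 3`), `N ∣ M`: every `γ ∈ Γ₀(M)` with `tr² ≤ 4` lies in `Γ_H`, `H = ker ((ℤ/M)ˣ → Δ_Q)`.  This is the
replacement of main's `twe_di_hom_parEll'` (which needs `5 ≤ p` and `¬ p ∣ M`). -/
theorem m59epw_sli_hPE {p : ℕ} [Fact p.Prime] (hp2 : p ≠ 2) {N : ℕ} (hrig : m59ep_Rigid p N)
    {M : ℕ} (hNM : N ∣ M) (Q : Finset ℕ) (hQp : ∀ t ∈ Q, t.Prime) (hQM : ∀ t ∈ Q, t ∣ M) :
    ∀ γ : SL(2, ℤ), γ ∈ Gamma0 M → lrpd_tr γ ^ 2 ≤ 4 →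
      γ ∈ twe_GamH M (twe_di_hom p Q M hQp hQM).ker := by
  have hp : p.Prime := Fact.out
  intro γ hγ htr
  by_cases h3 : p = 3
  · obtain ⟨r, hr, hrN, hr3⟩ := hrig h3
    exact m59epw_pe_hom_of_rigid p Q M hQp hQM (hp.odd_of_ne_two hp2) hr (hrN.trans hNM) hr3 γ hγ htr
  · have h2' : Nat.Coprime 2 p := (Nat.coprime_primes Nat.prime_two hp).2 (Ne.symm hp2)
    have h3' : Nat.Coprime 3 p := (Nat.coprime_primes Nat.prime_three hp).2 (Ne.symm h3)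
    have h12 : Nat.Coprime 12 p := by
      have h : (12 : ℕ) = 2 ^ 2 * 3 := by norm_num
      rw [h]
      exact Nat.Coprime.mul_left (Nat.Coprime.pow_left 2 h2') h3'
    exact m59epw_pe_hom_of_coprime p Q M hQp hQM h12 γ hγ htr

section data

variable {p : ℕ} [Fact p.Prime]
  {𝒪 : Type} [CommRing 𝒪] [IsDomain 𝒪] [IsDiscreteValuationRing 𝒪]
  [IsAdicComplete (maximalIdeal 𝒪) 𝒪] [Finite (ResidueField 𝒪)] [CharZero 𝒪]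
  {N : ℕ} [NeZero N] {S : Finset ℕ} {θ : heckeAlgebra N 2 (↑S : Set ℕ) →+* ResidueField 𝒪}

/-- a non-Eisenstein good prime of the balanced level. -/
theorem m59epw_sli_exists_i0 (hp2 : p ≠ 2) (hp𝒪 : (p : 𝒪) ∈ maximalIdeal 𝒪)
    (ρbar : ResidualGaloisRep (ResidueField 𝒪)) (hcompat : twt_Compat θ ρbar)
    (hirr : ρbar.IsAbsolutelyIrreducible)
    (Q : Finset ℕ) [NeZero (twe_Nbal N Q ∅)]
    (θ' : heckeAlgebra (twe_Nbal N Q ∅) 2 (↑(S ∪ Q) : Set ℕ) →+* ResidueField 𝒪)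
    (θ'_eq : ∀ (ℓ : ℕ) (hℓ : ℓ.Prime) (h1 : ¬ ℓ ∣ twe_Nbal N Q ∅) (h2 : ℓ ∉ (↑(S ∪ Q) : Set ℕ))
      (h3 : ¬ ℓ ∣ N) (h4 : ℓ ∉ (↑S : Set ℕ)),
      θ' (heckeAlgebra.T hℓ h1 h2) = θ (heckeAlgebra.T hℓ h3 h4))
    (a : twe_sm_Idx (twe_Nbal N Q ∅) (S ∪ Q) → 𝒪) (ha : twe_sm_IsLift θ' a) :
    ∃ i₀ : twe_sm_Idx (twe_Nbal N Q ∅) (S ∪ Q),
      residue 𝒪 (a i₀) ≠ ((i₀.1 + 1 : ℕ) : ResidueField 𝒪) := by
  haveI : CharP (ResidueField 𝒪) p := s56a_charP p hp𝒪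
  have hp : p.Prime := Fact.out
  have hc' : twt_Compat θ' ρbar := twe_sg_compat_lift (twe_sli_dvd_Nbal N Q)
    Finset.subset_union_left θ θ' θ'_eq ρbar hcompat
  obtain ⟨ℓ, hℓ, hℓN, hℓS, -, -, h1, h2⟩ := twe_ne_main_eis (p := p) hp2 θ' ρbar hc' hirr p hp.pos
    (dvd_refl p) ∅
  refine ⟨⟨ℓ, hℓ, hℓN, hℓS⟩, ?_⟩
  rw [ha ⟨ℓ, hℓ, hℓN, hℓS⟩]
  intro h3
  apply h2
  rw [h3]
  push_cast
  rfl

variable (hp2 : p ≠ 2) (hp𝒪 : (p : 𝒪) ∈ maximalIdeal 𝒪) (hrig : m59ep_Rigid p N)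
    (hpS : p ∈ S) (hNS : ∀ ℓ : ℕ, ℓ.Prime → ℓ ∣ N → ℓ ∈ S)
    (ρbar : ResidualGaloisRep (ResidueField 𝒪)) (hcompat : twt_Compat θ ρbar)
    (hirr : ρbar.IsAbsolutelyIrreducible)
    (B : twe_Base 𝒪 N S θ) (hfull : B.IsFull)
    (Q : Finset ℕ) [NeZero (twe_Nbal N Q ∅)] (hQS : ∀ t ∈ Q, t ∉ S) (hTW : twe_IsTWSet θ p Q)
    (θ' : heckeAlgebra (twe_Nbal N Q ∅) 2 (↑(S ∪ Q) : Set ℕ) →+* ResidueField 𝒪)
    (θ'_eq : ∀ (ℓ : ℕ) (hℓ : ℓ.Prime) (h1 : ¬ ℓ ∣ twe_Nbal N Q ∅) (h2 : ℓ ∉ (↑(S ∪ Q) : Set ℕ))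
      (h3 : ¬ ℓ ∣ N) (h4 : ℓ ∉ (↑S : Set ℕ)),
      θ' (heckeAlgebra.T hℓ h1 h2) = θ (heckeAlgebra.T hℓ h3 h4))
    (B' : twe_Base 𝒪 (twe_Nbal N Q ∅) (S ∪ Q) θ') (hfull' : B'.IsFull)
    {M : ℕ} [NeZero M] (hM : M = N * ∏ t ∈ Q, t)
    (hQp : ∀ t ∈ Q, t.Prime) (hQM : ∀ t ∈ Q, t ∣ M)
    (F : twe_sm_Frame M (twe_di_hom p Q M hQp hQM).ker (twe_sm_q (twe_Nbal N Q ∅) (S ∪ Q)))
    (a : twe_sm_Idx (twe_Nbal N Q ∅) (S ∪ Q) → 𝒪) (ha : twe_sm_IsLift θ' a)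

/-- the chosen non-Eisenstein good prime. -/
def m59epw_sli_i0 : twe_sm_Idx (twe_Nbal N Q ∅) (S ∪ Q) :=
  (m59epw_sli_exists_i0 hp2 hp𝒪 ρbar hcompat hirr Q θ' θ'_eq a ha).choose

theorem m59epw_sli_i0_ne :
    residue 𝒪 (a (m59epw_sli_i0 hp2 hp𝒪 ρbar hcompat hirr Q θ' θ'_eq a ha)) ≠
      (((m59epw_sli_i0 hp2 hp𝒪 ρbar hcompat hirr Q θ' θ'_eq a ha).1 + 1 : ℕ) : ResidueField 𝒪) :=
  (m59epw_sli_exists_i0 hp2 hp𝒪 ρbar hcompat hirr Q θ' θ'_eq a ha).choose_spec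

/-- **the level data for the concrete Taylor–Wiles data.** -/
def m59epw_sli_data : twe_mk_LevelData B p Q :=
  m59epw_sld_data hp2 hp𝒪 hpS hNS ρbar hcompat hirr B hfull Q hQS hTW θ' θ'_eq B' hfull'
    (twe_sli_hNS' hNS hQp) (twe_sli_pi0 hNS B Q θ' θ'_eq B' hfull' hQp)
    (twe_sli_pi0_T hNS B Q θ' θ'_eq B' hfull' hQp) hM F a ha
    (twe_sri_level 𝒪 p (twe_sli_hQ hNS hQS hTW) hM
      ((Fact.out : p.Prime).odd_of_ne_two hp2) hQp hQM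
      (twe_sm_q (twe_Nbal N Q ∅) (S ∪ Q)) (fun i => i.2.2.1) F)
    (twe_di_d1 p Q M hQp hQM) (twe_di_d1_surjective p Q M hQp hQM)
    (twe_di_d1_eq_one_iff p Q M hQp hQM)
    (twe_di_neg_one_mem_GamH1 p Q M hQp hQM ((Fact.out : p.Prime).odd_of_ne_two hp2))
    (m59epw_sli_hPE hp2 hrig (Dvd.intro _ hM.symm) Q hQp hQM)
    (twe_di_delta_pow_exp p Q)
    (m59epw_sli_i0 hp2 hp𝒪 ρbar hcompat hirr Q θ' θ'_eq a ha)
    (m59epw_sli_i0_ne hp2 hp𝒪 ρbar hcompat hirr Q θ' θ'_eq a ha)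

/-- shorthand. -/
local notation "𝔇" => m59epw_sli_data hp2 hp𝒪 hrig hpS hNS ρbar hcompat hirr B hfull Q hQS hTW θ'
  θ'_eq B' hfull' hM hQp hQM F a ha

theorem m59epw_sli_data_theta' : (𝔇).θ' = θ' := rfl

theorem m59epw_sli_data_B' : (𝔇).B' = B' := rfl

theorem m59epw_sli_data_pi0 : (𝔇).π0 = twe_sli_pi0 hNS B Q θ' θ'_eq B' hfull' hQp := rfl

theorem m59epw_sli_data_P : (𝔇).P = ↥(twe_pr_prim (twe_sm_TY 𝒪 F) a) := rfl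

theorem m59epw_sli_data_psi : (𝔇).ψ = twe_smod_psi B' hfull' (twe_sli_hNS' hNS hQp) F a ha
    (twe_sri_level 𝒪 p (twe_sli_hQ hNS hQS hTW) hM
      ((Fact.out : p.Prime).odd_of_ne_two hp2) hQp hQM
      (twe_sm_q (twe_Nbal N Q ∅) (S ∪ Q)) (fun i => i.2.2.1) F) := rfl

theorem m59epw_sli_data_rho : (𝔇).ρ = twe_smod_rho (twe_di_d1 p Q M hQp hQM)
    (twe_di_d1_surjective p Q M hQp hQM) (twe_di_d1_eq_one_iff p Q M hQp hQM) F a := rfl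

end data

end Fermat.Agent.M59
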