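/-
Project M59 (S59), block [E'] (architect helper3), cell [EP-TWIN] (helper5 + helper22), tag `m59epw_`.
Twin of `TW/Aut/SeamDefs.lean`: the Props `m59epw_M1F_stmt`, `m59epw_sm_OldIter_stmt`.
Rule of the cell: the twin of main's `twe_X` is `m59epw_X`; `5 ≤ p` becomes `p ≠ 2`; `Squarefree N` and
`¬ p ∣ N` are dropped; `h12` becomes `hPE` (every `γ ∈ Γ₀(M)` with `tr² ≤ 4` lies in `Γ_H`).  Same proofs.
-/
import Mathlib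
import Fermat.Agent.TW.Aut.SeamDefs

set_option autoImplicit false
set_option linter.unusedSectionVars false
set_option linter.unusedVariables false
set_option linter.style.haveILetI false
set_option synthInstance.maxHeartbeats 400000
set_option maxHeartbeats 1000000

noncomputable section

namespace Fermat.Agent.M59

open IsLocalRing Polynomial CuspForm Fermat.Agent.JT3 Fermat.Agent.LR CongruenceSubgroup Fermat.Agent.TW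
open scoped MatrixGroups

/-- **(M1F)** = `twe_M1_stmt` with fullness; needed at EVERY level (`N` arbitrary). -/
def m59epw_M1F_stmt : Prop :=
  ∀ (p : ℕ) [Fact p.Prime], p ≠ 2 →
  ∀ (𝒪 : Type) [CommRing 𝒪] [IsDomain 𝒪] [IsDiscreteValuationRing 𝒪]
    [IsAdicComplete (maximalIdeal 𝒪) 𝒪] [Finite (ResidueField 𝒪)] [CharZero 𝒪],
    (p : 𝒪) ∈ maximalIdeal 𝒪 →
  ∀ (N : ℕ) [NeZero N],
  ∀ (S : Finset ℕ), p ∈ S → (∀ ℓ : ℕ, ℓ.Prime → ℓ ∣ N → ℓ ∈ S) →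
  ∀ (θ : heckeAlgebra N 2 (↑S : Set ℕ) →+* ResidueField 𝒪)
    (ρbar : ResidualGaloisRep (ResidueField 𝒪)),
    twt_Compat θ ρbar → ρbar.IsAbsolutelyIrreducible →
    ∃ B : twe_Base 𝒪 N S θ, B.IsFull

/-- **(OldIter)**: the iterated E/Old isomorphism
`Hom(gh_H (N ∏_{t ∈ Q} t), 𝒪)_θ ≅ (Hom(gh_H N, 𝒪)_θ)^{2^{|Q|}}`, Hecke-equivariant (diagonally) for
a family `q` of good primes of `(N, S ∪ Q)` containing all of them. -/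
def m59epw_sm_OldIter_stmt : Prop :=
  ∀ (p : ℕ) [Fact p.Prime], p ≠ 2 →
  ∀ (𝒪 : Type) [CommRing 𝒪] [IsDomain 𝒪] [IsDiscreteValuationRing 𝒪]
    [IsAdicComplete (maximalIdeal 𝒪) 𝒪] [Finite (ResidueField 𝒪)] [CharZero 𝒪],
    (p : 𝒪) ∈ maximalIdeal 𝒪 →
  ∀ (N : ℕ) [NeZero N],
  ∀ (S : Finset ℕ), p ∈ S → (∀ ℓ : ℕ, ℓ.Prime → ℓ ∣ N → ℓ ∈ S) →
  ∀ (θ : heckeAlgebra N 2 (↑S : Set ℕ) →+* ResidueField 𝒪)
    (ρbar : ResidualGaloisRep (ResidueField 𝒪)),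
    twt_Compat θ ρbar → ρbar.IsAbsolutelyIrreducible →
  ∀ (Q : Finset ℕ), (∀ t ∈ Q, t ∉ S) → twe_IsTWSet θ p Q →
  ∀ {I : Type} (q : I → ℕ) (hq : ∀ i, pk_Good N (S ∪ Q) (q i)),
    (∀ ℓ, pk_Good N (S ∪ Q) ℓ → ∃ i, q i = ℓ) →
  ∀ (a : I → 𝒪),
    (∀ i, residue 𝒪 (a i) = θ (heckeAlgebra.T (hq i).1 (hq i).2.1
      (fun h => (hq i).2.2 (Finset.coe_subset.mpr Finset.subset_union_left h)))) →
  ∀ (M : ℕ) [NeZero M], M = N * ∏ t ∈ Q, t →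
    ∃ c : ↥(twe_pr_prim (twe_sm_TX 𝒪 M q) a) →ₗ[𝒪]
        (Fin (2 ^ Q.card) → ↥(twe_pr_prim (twe_sm_TX 𝒪 N q) a)),
      Function.Bijective c ∧
      ∀ (i : I) (x y : ↥(twe_pr_prim (twe_sm_TX 𝒪 M q) a)),
        (y : gh_H M →+ 𝒪) = twe_sm_TX 𝒪 M q i (x : gh_H M →+ 𝒪) →
        ∀ k, ((c y k : ↥(twe_pr_prim (twe_sm_TX 𝒪 N q) a)) : gh_H N →+ 𝒪) =
          twe_sm_TX 𝒪 N q i ((c x k : ↥(twe_pr_prim (twe_sm_TX 𝒪 N q) a)) : gh_H N →+ 𝒪)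

end Fermat.Agent.M59
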