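/-
Project M59 (S59), block [E'] (architect helper3), cell [EP-TWIN] (helper5 + helper22), tag `m59epw_`.
Twin of `TW/Aut/DatumM1.lean`: `m59epw_dt_main`, `m59epw_dt_M1F` (fullness at EVERY level, `p` odd, `p ∣ N` allowed).
Rule of the cell: the twin of main's `twe_X` is `m59epw_X`; `5 ≤ p` becomes `p ≠ 2`; `Squarefree N` and
`¬ p ∣ N` are dropped; `h12` becomes `hPE` (every `γ ∈ Γ₀(M)` with `tr² ≤ 4` lies in `Γ_H`).  Same proofs.
-/
import Mathlib
import Fermat.Agent.TW.Aut.DatumM1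
import Fermat.Agent.M59.EP.Twin.SeamDefs

set_option autoImplicit false
set_option linter.unusedSectionVars false
set_option linter.unusedVariables false
set_option linter.style.haveILetI false
set_option synthInstance.maxHeartbeats 400000
set_option maxHeartbeats 1000000

noncomputable section

namespace Fermat.Agent.M59

open IsLocalRing Polynomial CuspForm Fermat.Agent.JT3 Fermat.Agent.LR CongruenceSubgroup Fermat.Agent.TW
open scoped MatrixGroups

/-- **the full output of E/Datum** under the hypotheses of (M1) (`p ∤ N` not needed). -/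
theorem m59epw_dt_main (p : ℕ) [Fact p.Prime] (hp2 : p ≠ 2)
    (𝒪 : Type) [CommRing 𝒪] [IsDomain 𝒪] [IsDiscreteValuationRing 𝒪]
    [IsAdicComplete (maximalIdeal 𝒪) 𝒪] [Finite (ResidueField 𝒪)] [CharZero 𝒪]
    (hp𝒪 : (p : 𝒪) ∈ maximalIdeal 𝒪) (N : ℕ) [NeZero N] (S : Finset ℕ) (hpS : p ∈ S)
    (hNS : ∀ ℓ : ℕ, ℓ.Prime → ℓ ∣ N → ℓ ∈ S)
    (θ : heckeAlgebra N 2 (↑S : Set ℕ) →+* ResidueField 𝒪)
    (ρbar : ResidualGaloisRep (ResidueField 𝒪)) (hcompat : twt_Compat θ ρbar)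
    (habs : ρbar.IsAbsolutelyIrreducible) : Nonempty (twe_dt_Full 𝒪 N S θ) :=
  twe_dt_inst hp2 hp𝒪 hpS hNS θ ρbar hcompat habs

/-- **(M1F)** (cell (C1) of `TW/Aut/SeamDefs.lean`). -/
theorem m59epw_dt_M1F : m59epw_M1F_stmt := by
  intro p _ hp2 𝒪 _ _ _ _ _ _ hp𝒪 N _ S hpS hNS θ ρbar hcompat habs
  obtain ⟨F⟩ := m59epw_dt_main p hp2 𝒪 hp𝒪 N S hpS hNS θ ρbar hcompat habs
  exact ⟨F.base, twe_dt_full_isFull F⟩

end Fermat.Agent.M59
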