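/-
Project M59 (S59), block [E'] (architect helper3), cell [EP-TWIN] (helper5 + helper22), tag `m59epw_`.
Twin of `TW/Aut/SeamRing.lean`: `m59epw_sg_base_at` ((C1) at a higher level).
Rule of the cell: the twin of main's `twe_X` is `m59epw_X`; `5 ≤ p` becomes `p ≠ 2`; `Squarefree N` and
`¬ p ∣ N` are dropped; `h12` becomes `hPE` (every `γ ∈ Γ₀(M)` with `tr² ≤ 4` lies in `Γ_H`).  Same proofs.
-/
import Mathlib
import Fermat.Agent.TW.Aut.SeamRing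
import Fermat.Agent.M59.EP.Twin.SeamDefs

set_option autoImplicit false
set_option linter.unusedSectionVars false
set_option linter.unusedVariables false
set_option linter.style.haveILetI false
set_option synthInstance.maxHeartbeats 400000
set_option maxHeartbeats 1000000

noncomputable section

namespace Fermat.Agent.M59

open IsLocalRing Polynomial CuspForm Fermat.Agent.JT3 Fermat.Agent.LR CongruenceSubgroup Fermat.Agent.TW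
open scoped MatrixGroups

/-- **(C1) at a higher level**: the lifted eigensystem, its compatibility, a FULL base package. -/
theorem m59epw_sg_base_at (hM1F : m59epw_M1F_stmt)
    (p : ℕ) [Fact p.Prime] (hp2 : p ≠ 2)
    (𝒪 : Type) [CommRing 𝒪] [IsDomain 𝒪] [IsDiscreteValuationRing 𝒪]
    [IsAdicComplete (maximalIdeal 𝒪) 𝒪] [Finite (ResidueField 𝒪)] [CharZero 𝒪]
    (hp𝒪 : (p : 𝒪) ∈ maximalIdeal 𝒪)
    (N : ℕ) [NeZero N] (S : Finset ℕ)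
    (θ : heckeAlgebra N 2 (↑S : Set ℕ) →+* ResidueField 𝒪)
    (ρbar : ResidualGaloisRep (ResidueField 𝒪))
    (hc : twt_Compat θ ρbar) (hirr : ρbar.IsAbsolutelyIrreducible)
    (N₁ : ℕ) [NeZero N₁] (hNN₁ : N ∣ N₁)
    (S₁ : Finset ℕ) (hSS₁ : S ⊆ S₁) (hpS₁ : p ∈ S₁)
    (hN₁S₁ : ∀ ℓ : ℕ, ℓ.Prime → ℓ ∣ N₁ → ℓ ∈ S₁) :
    ∃ θ₁ : heckeAlgebra N₁ 2 (↑S₁ : Set ℕ) →+* ResidueField 𝒪,
      (∀ (ℓ : ℕ) (hℓ : ℓ.Prime) (h1 : ¬ ℓ ∣ N₁) (h2 : ℓ ∉ (↑S₁ : Set ℕ)) (h3 : ¬ ℓ ∣ N)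
        (h4 : ℓ ∉ (↑S : Set ℕ)), θ₁ (heckeAlgebra.T hℓ h1 h2) = θ (heckeAlgebra.T hℓ h3 h4)) ∧
      twt_Compat θ₁ ρbar ∧ ∃ B₁ : twe_Base 𝒪 N₁ S₁ θ₁, B₁.IsFull := by
  obtain ⟨θ₁, hθ₁⟩ := twe_rg_theta_lift hNN₁ S S₁ hSS₁ hN₁S₁ θ
  have hc₁ : twt_Compat θ₁ ρbar := twe_sg_compat_lift hNN₁ hSS₁ θ θ₁ hθ₁ ρbar hc
  exact ⟨θ₁, hθ₁, hc₁, hM1F p hp2 𝒪 hp𝒪 N₁ S₁ hpS₁ hN₁S₁ θ₁ ρbar hc₁ hirr⟩

end Fermat.Agent.M59
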