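/-
Project M59 (S59), block [E'] (architect helper3), cell [EP-TWIN] (helper5 + helper22), tag `m59epw_`.
Twin of `TW/Aut/SeamLevelFinal.lean`: `m59epw_slf_base`, `m59epw_slf_exists_frame`, and the HEADLINE `m59epw_slf_level` = `twe_slf_level` with `p ≠ 2` and `m59ep_Rigid p N` in place of `5 ≤ p`, `Squarefree N`, `¬ p ∣ N`.
Rule of the cell: the twin of main's `twe_X` is `m59epw_X`; `5 ≤ p` becomes `p ≠ 2`; `Squarefree N` and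
`¬ p ∣ N` are dropped; `h12` becomes `hPE` (every `γ ∈ Γ₀(M)` with `tr² ≤ 4` lies in `Γ_H`).  Same proofs.
-/
import Mathlib
import Fermat.Agent.TW.Aut.SeamLevelFinal
import Fermat.Agent.M59.EP.Twin.SeamLevelInst
import Fermat.Agent.M59.EP.Twin.DatumM1
import Fermat.Agent.M59.EP.Twin.SeamRing

set_option autoImplicit false
set_option linter.unusedSectionVars false
set_option linter.unusedVariables false
set_option linter.style.haveILetI false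
set_option synthInstance.maxHeartbeats 400000
set_option maxHeartbeats 1000000

noncomputable section

namespace Fermat.Agent.M59

open IsLocalRing Polynomial CuspForm Fermat.Agent.JT3 Fermat.Agent.LR CongruenceSubgroup Fermat.Agent.TW
open scoped MatrixGroups

section main

variable {p : ℕ} [Fact p.Prime]
  {𝒪 : Type} [CommRing 𝒪] [IsDomain 𝒪] [IsDiscreteValuationRing 𝒪]
  [IsAdicComplete (maximalIdeal 𝒪) 𝒪] [Finite (ResidueField 𝒪)] [CharZero 𝒪]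
  {N : ℕ} [NeZero N] {S : Finset ℕ} {θ : heckeAlgebra N 2 (↑S : Set ℕ) →+* ResidueField 𝒪}

/-- **(C1) at the balanced level** `(twe_Nbal N Q ∅, S ∪ Q)`. -/
theorem m59epw_slf_base (hp2 : p ≠ 2) (hp𝒪 : (p : 𝒪) ∈ maximalIdeal 𝒪)
    (hpS : p ∈ S) (hNS : ∀ ℓ : ℕ, ℓ.Prime → ℓ ∣ N → ℓ ∈ S)
    (ρbar : ResidualGaloisRep (ResidueField 𝒪)) (hcompat : twt_Compat θ ρbar)
    (hirr : ρbar.IsAbsolutelyIrreducible)
    (Q : Finset ℕ) [NeZero (twe_Nbal N Q ∅)] (hQS : ∀ t ∈ Q, t ∉ S) (hTW : twe_IsTWSet θ p Q) :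
    ∃ θ' : heckeAlgebra (twe_Nbal N Q ∅) 2 (↑(S ∪ Q) : Set ℕ) →+* ResidueField 𝒪,
      (∀ (ℓ : ℕ) (hℓ : ℓ.Prime) (h1 : ¬ ℓ ∣ twe_Nbal N Q ∅) (h2 : ℓ ∉ (↑(S ∪ Q) : Set ℕ))
        (h3 : ¬ ℓ ∣ N) (h4 : ℓ ∉ (↑S : Set ℕ)),
        θ' (heckeAlgebra.T hℓ h1 h2) = θ (heckeAlgebra.T hℓ h3 h4)) ∧
      twt_Compat θ' ρbar ∧ ∃ B' : twe_Base 𝒪 (twe_Nbal N Q ∅) (S ∪ Q) θ', B'.IsFull :=
  m59epw_sg_base_at m59epw_dt_M1F p hp2 𝒪 hp𝒪 N S θ ρbar hcompat hirr (twe_Nbal N Q ∅)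
    (twe_sli_dvd_Nbal N Q) (S ∪ Q)
    Finset.subset_union_left (Finset.mem_union_left _ hpS)
    (twe_sli_hNS' hNS fun t ht => (hTW t ht).1)

/-- **a Hecke frame** on `H' = ker ((ℤ/M)ˣ → Δ_Q)` over the good primes of the balanced level. -/
theorem m59epw_slf_exists_frame (hp2 : p ≠ 2) (Q : Finset ℕ) {M : ℕ} (hM : M = N * ∏ t ∈ Q, t)
    (hQp : ∀ t ∈ Q, t.Prime) (hQM : ∀ t ∈ Q, t ∣ M) :
    Nonempty (twe_sm_Frame M (twe_di_hom p Q M hQp hQM).ker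
      (twe_sm_q (twe_Nbal N Q ∅) (S ∪ Q))) :=
  twe_fx_frame_pow M (twe_di_hom p Q M hQp hQM).ker
    (twe_sm_q (twe_Nbal N Q ∅) (S ∪ Q)) (fun i => i.2.1)
    (fun i => twe_slc_not_dvd i.2 hM) (p := p) (n := twe_di_exp p Q)
    ((Fact.out : p.Prime).odd_of_ne_two hp2)
    (fun u => MonoidHom.mem_ker.2 (twe_di_hom_pow_exp_mem p Q M hQp hQM u))

end main

/-- **the unipotent half of (M2)** for every odd `p` under rigidity, ANY level `N` (`p ∣ N` and non-squarefree `N` allowed): ONE full base package, and over it the unipotent system at every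
Taylor–Wiles set. -/
theorem m59epw_slf_level :
    ∀ (p : ℕ) [Fact p.Prime], p ≠ 2 →
    ∀ (𝒪 : Type) [CommRing 𝒪] [IsDomain 𝒪] [IsDiscreteValuationRing 𝒪]
      [IsAdicComplete (maximalIdeal 𝒪) 𝒪] [Finite (ResidueField 𝒪)] [CharZero 𝒪],
      (p : 𝒪) ∈ maximalIdeal 𝒪 →
    ∀ (N : ℕ) [NeZero N], m59ep_Rigid p N →
    ∀ (S : Finset ℕ), p ∈ S → (∀ ℓ : ℕ, ℓ.Prime → ℓ ∣ N → ℓ ∈ S) →
    ∀ (θ : heckeAlgebra N 2 (↑S : Set ℕ) →+* ResidueField 𝒪)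
      (ρbar : ResidualGaloisRep (ResidueField 𝒪)),
      twt_Compat θ ρbar → ρbar.IsAbsolutelyIrreducible →
      ∃ B : twe_Base 𝒪 N S θ, B.IsFull ∧
        ∀ (Q : Finset ℕ) [NeZero (twe_Nbal N Q ∅)], (∀ t ∈ Q, t ∉ S) → twe_IsTWSet θ p Q →
          Nonempty (twe_Level B p Q) := by
  intro p _ hp2 𝒪 _ _ _ _ _ _ hp𝒪 N _ hrig S hpS hNS θ ρbar hcompat hirr
  obtain ⟨B, hfull⟩ := m59epw_dt_M1F p hp2 𝒪 hp𝒪 N S hpS hNS θ ρbar hcompat hirr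
  refine ⟨B, hfull, fun Q _ hQS hTW => ?_⟩
  have hQp : ∀ t ∈ Q, t.Prime := fun t ht => (hTW t ht).1
  obtain ⟨θ', θ'_eq, -, B', hfull'⟩ := m59epw_slf_base hp2 hp𝒪 hpS hNS ρbar hcompat hirr Q hQS hTW
  have hM0 : N * ∏ t ∈ Q, t ≠ 0 :=
    mul_ne_zero (NeZero.ne N) (Finset.prod_ne_zero_iff.2 fun t ht => (hQp t ht).ne_zero)
  have : NeZero (N * ∏ t ∈ Q, t) := ⟨hM0⟩
  have hM : N * ∏ t ∈ Q, t = N * ∏ t ∈ Q, t := rfl
  have hQM := twe_sli_dvd_M hM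
  obtain ⟨F⟩ := m59epw_slf_exists_frame (p := p) (N := N) (S := S) hp2 Q hM hQp hQM
  obtain ⟨a, ha⟩ := twe_slf_exists_lift θ'
  exact ⟨(m59epw_sli_data hp2 hp𝒪 hrig hpS hNS ρbar hcompat hirr B hfull Q hQS hTW θ' θ'_eq B'
    hfull' hM hQp hQM F a ha).toLevel⟩

end Fermat.Agent.M59
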