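/-
Project M59 (S59), block [E'] / box [C+S38g] (request helper14 #5391, chief #5397 (5)), cell [EP-TWIN]
(helper5), tag `m59epw_`.  Twin of `TW/Aut/SeamBigInst.lean`: `m59epw_sbi_hPE` (NEW), `m59epw_sbi_exists_i0`, `m59epw_sbi_base`, `m59epw_sbi_level`, `m59epw_sbi_data`, `m59epw_sbi_big`; every other `twe_sbi_*` of main is reused.
Rule of the cell: the twin of main's `twe_X` is `m59epw_X`; `5 ≤ p` becomes `p ≠ 2`; in the generic files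
`(hp5 : 5 ≤ p) (hpM : ¬ p ∣ M)` becomes `(hp2 : p ≠ 2) (hPE : every γ ∈ Γ₀(M) with tr² ≤ 4 lies in Γ_H'')`;
in the instance files `hp5 hp𝒪 hsq hpN` becomes `hp2 hp𝒪 hrig hsq` (`hrig : m59ep_Rigid p N`; `¬ p ∣ N` is
dropped).  Same proofs.
-/
import Mathlib
import Fermat.Agent.TW.Aut.SeamBigInst
import Fermat.Agent.M59.EP.Twin.SeamBigC
import Fermat.Agent.M59.EP.Twin.SeamLevelFinal

set_option autoImplicit false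
set_option linter.unusedSectionVars false
set_option linter.unusedVariables false
set_option linter.style.haveILetI false
set_option synthInstance.maxHeartbeats 400000
set_option maxHeartbeats 1000000

noncomputable section

namespace Fermat.Agent.M59

open IsLocalRing Polynomial CuspForm Fermat.Agent.JT3 Fermat.Agent.LR CongruenceSubgroup Fermat.Agent.TW
open Fermat.Agent.S56
open scoped MatrixGroups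

/-- **`hPE` at the big level from rigidity**: `p` odd, `m59ep_Rigid p N`, `N ∣ M`: every `γ ∈ Γ₀(M)`
with `tr² ≤ 4` lies in `Γ_{H''}`, `H'' = ker ((ℤ/M)ˣ → Δ_Q × Δ_Th)`.  Replacement of main's
`twe_di_pair_parEll'` (which needs `5 ≤ p` and `¬ p ∣ M`). -/
theorem m59epw_sbi_hPE {p : ℕ} [Fact p.Prime] (hp2 : p ≠ 2) {N : ℕ} (hrig : m59ep_Rigid p N)
    {M : ℕ} (hNM : N ∣ M) (Q Th : Finset ℕ) (hQp : ∀ t ∈ Q, t.Prime) (hQM : ∀ t ∈ Q, t ∣ M)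
    (hThp : ∀ t ∈ Th, t.Prime) (hThM : ∀ t ∈ Th, t ∣ M) :
    ∀ γ : SL(2, ℤ), γ ∈ Gamma0 M → lrpd_tr γ ^ 2 ≤ 4 →
      γ ∈ twe_GamH M (twe_di_pair p Q Th M hQp hQM hThp hThM).ker := by
  have hp : p.Prime := Fact.out
  intro γ hγ htr
  by_cases h3 : p = 3
  · obtain ⟨r, hr, hrN, hr3⟩ := hrig h3
    exact m59epw_pe_pair_of_rigid p Q Th M hQp hQM hThp hThM (hp.odd_of_ne_two hp2) hr
      (hrN.trans hNM) hr3 γ hγ htr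
  · have h2' : Nat.Coprime 2 p := (Nat.coprime_primes Nat.prime_two hp).2 (Ne.symm hp2)
    have h3' : Nat.Coprime 3 p := (Nat.coprime_primes Nat.prime_three hp).2 (Ne.symm h3)
    have h12 : Nat.Coprime 12 p := by
      have h : (12 : ℕ) = 2 ^ 2 * 3 := by norm_num
      rw [h]
      exact Nat.Coprime.mul_left (Nat.Coprime.pow_left 2 h2') h3'
    exact m59epw_pe_pair_of_coprime p Q Th M hQp hQM hThp hThM h12 γ hγ htr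

section exist

variable {p : ℕ} [Fact p.Prime]
  {𝒪 : Type} [CommRing 𝒪] [IsDomain 𝒪] [IsDiscreteValuationRing 𝒪]
  [IsAdicComplete (maximalIdeal 𝒪) 𝒪] [Finite (ResidueField 𝒪)] [CharZero 𝒪]

/-- a non-Eisenstein good prime, at any level. -/
theorem m59epw_sbi_exists_i0 (hp2 : p ≠ 2) (hp𝒪 : (p : 𝒪) ∈ maximalIdeal 𝒪)
    {A : ℕ} [NeZero A] {S₁ : Finset ℕ}
    (θ₁ : heckeAlgebra A 2 (↑S₁ : Set ℕ) →+* ResidueField 𝒪)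
    (ρbar : ResidualGaloisRep (ResidueField 𝒪)) (hc₁ : twt_Compat θ₁ ρbar)
    (hirr : ρbar.IsAbsolutelyIrreducible)
    (a : twe_sm_Idx A S₁ → 𝒪) (ha : twe_sm_IsLift θ₁ a) :
    ∃ i₀ : twe_sm_Idx A S₁, residue 𝒪 (a i₀) ≠ ((i₀.1 + 1 : ℕ) : ResidueField 𝒪) := by
  haveI : CharP (ResidueField 𝒪) p := s56a_charP p hp𝒪
  have hp : p.Prime := Fact.out
  obtain ⟨ℓ, hℓ, hℓN, hℓS, -, -, h1, h2⟩ := twe_ne_main_eis (p := p) hp2 θ₁ ρbar hc₁ hirr p hp.pos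
    (dvd_refl p) ∅
  refine ⟨⟨ℓ, hℓ, hℓN, hℓS⟩, ?_⟩
  rw [ha ⟨ℓ, hℓ, hℓN, hℓS⟩]
  intro h3
  apply h2
  rw [h3]
  push_cast
  rfl

variable {N : ℕ} [NeZero N] {S : Finset ℕ} {θ : heckeAlgebra N 2 (↑S : Set ℕ) →+* ResidueField 𝒪}

/-- **(C1) at the big balanced level** `(twe_Nbal N Q Th, S ∪ Q)`. -/
theorem m59epw_sbi_base (hp2 : p ≠ 2) (hp𝒪 : (p : 𝒪) ∈ maximalIdeal 𝒪)
    (hpS : p ∈ S) (hNS : ∀ ℓ : ℕ, ℓ.Prime → ℓ ∣ N → ℓ ∈ S)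
    (ρbar : ResidualGaloisRep (ResidueField 𝒪)) (hcompat : twt_Compat θ ρbar)
    (hirr : ρbar.IsAbsolutelyIrreducible)
    (Q : Finset ℕ) (hQS : ∀ t ∈ Q, t ∉ S) (hTW : twe_IsTWSet θ p Q)
    (Th : Finset ℕ) [NeZero (twe_Nbal N Q Th)] (hTh : ∀ ℓ ∈ Th, ℓ.Prime ∧ ℓ ∣ N) :
    ∃ θ'' : heckeAlgebra (twe_Nbal N Q Th) 2 (↑(S ∪ Q) : Set ℕ) →+* ResidueField 𝒪,
      (∀ (ℓ : ℕ) (hℓ : ℓ.Prime) (h1 : ¬ ℓ ∣ twe_Nbal N Q Th) (h2 : ℓ ∉ (↑(S ∪ Q) : Set ℕ))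
        (h3 : ¬ ℓ ∣ N) (h4 : ℓ ∉ (↑S : Set ℕ)),
        θ'' (heckeAlgebra.T hℓ h1 h2) = θ (heckeAlgebra.T hℓ h3 h4)) ∧
      twt_Compat θ'' ρbar ∧ ∃ B'' : twe_Base 𝒪 (twe_Nbal N Q Th) (S ∪ Q) θ'', B''.IsFull :=
  m59epw_sg_base_at m59epw_dt_M1F p hp2 𝒪 hp𝒪 N S θ ρbar hcompat hirr (twe_Nbal N Q Th)
    (twe_sbi_dvd_N N Q Th) (S ∪ Q)
    Finset.subset_union_left (Finset.mem_union_left _ hpS)
    (twe_sbi_hNS'' hNS (fun t ht => (hTW t ht).1) hTh)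


end exist

section data

variable {p : ℕ} [Fact p.Prime]
  {𝒪 : Type} [CommRing 𝒪] [IsDomain 𝒪] [IsDiscreteValuationRing 𝒪]
  [IsAdicComplete (maximalIdeal 𝒪) 𝒪] [Finite (ResidueField 𝒪)] [CharZero 𝒪]
  {N : ℕ} [NeZero N] {S : Finset ℕ} {θ : heckeAlgebra N 2 (↑S : Set ℕ) →+* ResidueField 𝒪}


/-- **the level data** (ONE frame at the big level). -/
def m59epw_sbi_level (hp2 : p ≠ 2) (hp𝒪 : (p : 𝒪) ∈ maximalIdeal 𝒪) (hrig : m59ep_Rigid p N)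
    (hsq : Squarefree N) (hpS : p ∈ S) (hNS : ∀ ℓ : ℕ, ℓ.Prime → ℓ ∣ N → ℓ ∈ S)
    (ρbar : ResidualGaloisRep (ResidueField 𝒪)) (hcompat : twt_Compat θ ρbar)
    (hirr : ρbar.IsAbsolutelyIrreducible)
    (B : twe_Base 𝒪 N S θ) (hfull : B.IsFull)
    (Q : Finset ℕ) [NeZero (twe_Nbal N Q ∅)] (hQS : ∀ t ∈ Q, t ∉ S) (hTW : twe_IsTWSet θ p Q)
    (Th : Finset ℕ) [NeZero (twe_Nbal N Q Th)] (hTh : ∀ ℓ ∈ Th, ℓ.Prime ∧ ℓ ∣ N)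
    (θ' : heckeAlgebra (twe_Nbal N Q ∅) 2 (↑(S ∪ Q) : Set ℕ) →+* ResidueField 𝒪)
    (θ'_eq : ∀ (ℓ : ℕ) (hℓ : ℓ.Prime) (h1 : ¬ ℓ ∣ twe_Nbal N Q ∅) (h2 : ℓ ∉ (↑(S ∪ Q) : Set ℕ))
      (h3 : ¬ ℓ ∣ N) (h4 : ℓ ∉ (↑S : Set ℕ)),
      θ' (heckeAlgebra.T hℓ h1 h2) = θ (heckeAlgebra.T hℓ h3 h4))
    (B' : twe_Base 𝒪 (twe_Nbal N Q ∅) (S ∪ Q) θ') (hfull' : B'.IsFull)
    (θ'' : heckeAlgebra (twe_Nbal N Q Th) 2 (↑(S ∪ Q) : Set ℕ) →+* ResidueField 𝒪)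
    (θ''_eq : ∀ (ℓ : ℕ) (hℓ : ℓ.Prime) (h1 : ¬ ℓ ∣ twe_Nbal N Q Th) (h2 : ℓ ∉ (↑(S ∪ Q) : Set ℕ))
      (h3 : ¬ ℓ ∣ N) (h4 : ℓ ∉ (↑S : Set ℕ)),
      θ'' (heckeAlgebra.T hℓ h1 h2) = θ (heckeAlgebra.T hℓ h3 h4))
    (hc'' : twt_Compat θ'' ρbar)
    (B'' : twe_Base 𝒪 (twe_Nbal N Q Th) (S ∪ Q) θ'') (hfull'' : B''.IsFull)
    {M : ℕ} [NeZero M] (hM : M = N * ∏ t ∈ Q, t)
    (hQp : ∀ t ∈ Q, t.Prime) (hQM : ∀ t ∈ Q, t ∣ M)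
    (hThp : ∀ t ∈ Th, t.Prime) (hThM : ∀ t ∈ Th, t ∣ M)
    (F'' : twe_sm_Frame M (twe_di_pair p Q Th M hQp hQM hThp hThM).ker
      (twe_sm_q (twe_Nbal N Q Th) (S ∪ Q)))
    (a'' : twe_sm_Idx (twe_Nbal N Q Th) (S ∪ Q) → 𝒪) (ha'' : twe_sm_IsLift θ'' a'') :
    twe_mk_LevelData B p Q :=
  m59epw_sli_data hp2 hp𝒪 hrig hpS hNS ρbar hcompat hirr B hfull Q hQS hTW θ' θ'_eq B' hfull' hM
    hQp hQM (twe_sbi_F' hNS hTh hQp hQM hThp hThM F'') (twe_sbi_a' hNS hTh a'')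
    (twe_sbi_ha' hNS hTh θ' θ'_eq θ'' θ''_eq a'' ha'')

/-- **the big data** over `(m59epw_sbi_level …).toLevel`. -/
def m59epw_sbi_data (hp2 : p ≠ 2) (hp𝒪 : (p : 𝒪) ∈ maximalIdeal 𝒪) (hrig : m59ep_Rigid p N)
    (hsq : Squarefree N) (hpS : p ∈ S) (hNS : ∀ ℓ : ℕ, ℓ.Prime → ℓ ∣ N → ℓ ∈ S)
    (ρbar : ResidualGaloisRep (ResidueField 𝒪)) (hcompat : twt_Compat θ ρbar)
    (hirr : ρbar.IsAbsolutelyIrreducible)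
    (B : twe_Base 𝒪 N S θ) (hfull : B.IsFull)
    (Q : Finset ℕ) [NeZero (twe_Nbal N Q ∅)] (hQS : ∀ t ∈ Q, t ∉ S) (hTW : twe_IsTWSet θ p Q)
    (Th : Finset ℕ) [NeZero (twe_Nbal N Q Th)] (hTh : ∀ ℓ ∈ Th, ℓ.Prime ∧ ℓ ∣ N)
    (θ' : heckeAlgebra (twe_Nbal N Q ∅) 2 (↑(S ∪ Q) : Set ℕ) →+* ResidueField 𝒪)
    (θ'_eq : ∀ (ℓ : ℕ) (hℓ : ℓ.Prime) (h1 : ¬ ℓ ∣ twe_Nbal N Q ∅) (h2 : ℓ ∉ (↑(S ∪ Q) : Set ℕ))
      (h3 : ¬ ℓ ∣ N) (h4 : ℓ ∉ (↑S : Set ℕ)),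
      θ' (heckeAlgebra.T hℓ h1 h2) = θ (heckeAlgebra.T hℓ h3 h4))
    (B' : twe_Base 𝒪 (twe_Nbal N Q ∅) (S ∪ Q) θ') (hfull' : B'.IsFull)
    (θ'' : heckeAlgebra (twe_Nbal N Q Th) 2 (↑(S ∪ Q) : Set ℕ) →+* ResidueField 𝒪)
    (θ''_eq : ∀ (ℓ : ℕ) (hℓ : ℓ.Prime) (h1 : ¬ ℓ ∣ twe_Nbal N Q Th) (h2 : ℓ ∉ (↑(S ∪ Q) : Set ℕ))
      (h3 : ¬ ℓ ∣ N) (h4 : ℓ ∉ (↑S : Set ℕ)),
      θ'' (heckeAlgebra.T hℓ h1 h2) = θ (heckeAlgebra.T hℓ h3 h4))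
    (hc'' : twt_Compat θ'' ρbar)
    (B'' : twe_Base 𝒪 (twe_Nbal N Q Th) (S ∪ Q) θ'') (hfull'' : B''.IsFull)
    {M : ℕ} [NeZero M] (hM : M = N * ∏ t ∈ Q, t)
    (hQp : ∀ t ∈ Q, t.Prime) (hQM : ∀ t ∈ Q, t ∣ M)
    (hThp : ∀ t ∈ Th, t.Prime) (hThM : ∀ t ∈ Th, t ∣ M)
    (F'' : twe_sm_Frame M (twe_di_pair p Q Th M hQp hQM hThp hThM).ker
      (twe_sm_q (twe_Nbal N Q Th) (S ∪ Q)))
    (a'' : twe_sm_Idx (twe_Nbal N Q Th) (S ∪ Q) → 𝒪) (ha'' : twe_sm_IsLift θ'' a'') :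
    twe_mk_BigData (m59epw_sbi_level hp2 hp𝒪 hrig hsq hpS hNS ρbar hcompat hirr B hfull Q hQS hTW Th hTh θ' θ'_eq B' hfull' θ'' θ''_eq hc'' B'' hfull'' hM hQp hQM hThp hThM F'' a'' ha'').toLevel Th :=
  m59epw_sbc_data (m59epw_sbi_level hp2 hp𝒪 hrig hsq hpS hNS ρbar hcompat hirr B hfull Q hQS hTW Th hTh θ' θ'_eq B' hfull' θ'' θ''_eq hc'' B'' hfull'' hM hQp hQM hThp hThM F'' a'' ha'') B'' hfull''
    (twe_sbi_hNS'' hNS hQp hTh)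
    (twe_sbi_exists_pi1 hNS hQp hTh θ' θ'_eq B' θ'' θ''_eq B'' hfull'').choose
    (twe_sbi_exists_pi1 hNS hQp hTh θ' θ'_eq B' θ'' θ''_eq B'' hfull'').choose_spec
    hQp hQM hThp hThM (twe_sbi_disjoint (twe_sli_hQ hNS hQS hTW) hTh) Fact.out hp2
    (m59epw_sbi_hPE hp2 hrig (Dvd.intro _ hM.symm) Q Th hQp hQM hThp hThM) hp𝒪 F'' a'' ha''
    (twe_sri_big 𝒪 p hsq (twe_sli_hQ hNS hQS hTW) hTh hM
      ((Fact.out : p.Prime).odd_of_ne_two hp2) hQp hQM hThp hThM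
      (twe_sm_q (twe_Nbal N Q Th) (S ∪ Q)) (fun i => i.2.2.1) F'')
    (m59epw_sbi_exists_i0 hp2 hp𝒪 θ'' ρbar hc'' hirr a'' ha'').choose
    (m59epw_sbi_exists_i0 hp2 hp𝒪 θ'' ρbar hc'' hirr a'' ha'').choose_spec
    (twe_sbi_kappa (twe_sbi_hgood hNS hTh)
      (twe_fx_frame_mono (twe_di_pair_ker_le p Q Th M hQp hQM hThp hThM) F'') a'')
    (fun ℓ'' ℓ' h y y' hy => twe_sbi_kappa_psi (twe_sbi_hgood hNS hTh) B' hfull'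
      (twe_sli_hNS' hNS hQp)
      (twe_fx_frame_mono (twe_di_pair_ker_le p Q Th M hQp hQM hThp hThM) F'') a'' _ _ ℓ'' ℓ' h y y' hy)
    (fun δ₁ y => twe_sbi_kappa_rho (twe_sbi_hgood hNS hTh) (twe_di_d1 p Q M hQp hQM)
      (twe_di_d1_surjective p Q M hQp hQM) (twe_di_d1_eq_one_iff p Q M hQp hQM)
      (twe_fx_frame_mono (twe_di_pair_ker_le p Q Th M hQp hQM hThp hThM) F'') a'' δ₁ y)
    θ''_eq

end data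

section final


/-- **(M2), with `L` after `Th`**: ONE full base package, and over it, for every Taylor–Wiles set `Q`
and every set `Th` of primes dividing `N`, a unipotent system and a big system over it. -/
theorem m59epw_sbi_big :
    ∀ (p : ℕ) [Fact p.Prime], p ≠ 2 →
    ∀ (𝒪 : Type) [CommRing 𝒪] [IsDomain 𝒪] [IsDiscreteValuationRing 𝒪]
      [IsAdicComplete (maximalIdeal 𝒪) 𝒪] [Finite (ResidueField 𝒪)] [CharZero 𝒪],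
      (p : 𝒪) ∈ maximalIdeal 𝒪 →
    ∀ (N : ℕ) [NeZero N], m59ep_Rigid p N → Squarefree N →
    ∀ (S : Finset ℕ), p ∈ S → (∀ ℓ : ℕ, ℓ.Prime → ℓ ∣ N → ℓ ∈ S) →
    ∀ (θ : heckeAlgebra N 2 (↑S : Set ℕ) →+* ResidueField 𝒪)
      (ρbar : ResidualGaloisRep (ResidueField 𝒪)),
      twt_Compat θ ρbar → ρbar.IsAbsolutelyIrreducible →
      ∃ B : twe_Base 𝒪 N S θ, B.IsFull ∧
        ∀ (Q : Finset ℕ) [NeZero (twe_Nbal N Q ∅)], (∀ t ∈ Q, t ∉ S) → twe_IsTWSet θ p Q →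
        ∀ (Th : Finset ℕ) [NeZero (twe_Nbal N Q Th)], (∀ ℓ ∈ Th, ℓ.Prime ∧ ℓ ∣ N) →
          ∃ L : twe_Level B p Q, Nonempty (twe_Big L Th) := by
  intro p _ hp2 𝒪 _ _ _ _ _ _ hp𝒪 N _ hrig hsq S hpS hNS θ ρbar hcompat hirr
  obtain ⟨B, hfull⟩ := m59epw_dt_M1F p hp2 𝒪 hp𝒪 N S hpS hNS θ ρbar hcompat hirr
  refine ⟨B, hfull, fun Q _ hQS hTW Th _ hTh => ?_⟩
  have hQp : ∀ t ∈ Q, t.Prime := fun t ht => (hTW t ht).1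
  have hThp : ∀ t ∈ Th, t.Prime := fun t ht => (hTh t ht).1
  obtain ⟨θ', θ'_eq, -, B', hfull'⟩ := m59epw_slf_base hp2 hp𝒪 hpS hNS ρbar hcompat hirr Q hQS hTW
  obtain ⟨θ'', θ''_eq, hc'', B'', hfull''⟩ := m59epw_sbi_base hp2 hp𝒪 hpS hNS ρbar hcompat hirr Q
    hQS hTW Th hTh
  have hM0 : N * ∏ t ∈ Q, t ≠ 0 :=
    mul_ne_zero (NeZero.ne N) (Finset.prod_ne_zero_iff.2 fun t ht => (hQp t ht).ne_zero)
  have : NeZero (N * ∏ t ∈ Q, t) := ⟨hM0⟩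
  have hM : N * ∏ t ∈ Q, t = N * ∏ t ∈ Q, t := rfl
  have hQM := twe_sli_dvd_M hM
  have hThM := twe_sbi_dvd_M_Th (Q := Q) hTh hM
  have hodd : Odd p := (Fact.out : p.Prime).odd_of_ne_two hp2
  obtain ⟨F''⟩ := twe_sbi_exists_frame (p := p) (N := N) (S := S) hodd hM hQp hQM hThp hThM
  obtain ⟨a'', ha''⟩ := twe_slf_exists_lift θ''
  exact ⟨_, ⟨(m59epw_sbi_data hp2 hp𝒪 hrig hsq hpS hNS ρbar hcompat hirr B hfull Q hQS hTW Th hTh θ'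
    θ'_eq B' hfull' θ'' θ''_eq hc'' B'' hfull'' hM hQp hQM hThp hThM F'' a'' ha'').toBig⟩⟩

end final

end Fermat.Agent.M59
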