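/-
Project M59 (S59), block [E'] / box [C+S38g] (request helper14 #5391, chief #5397 (5)), cell [EP-TWIN]
(helper5), tag `m59epw_`.  Twin of `TW/Aut/SeamBigInst3.lean`: `m59epw_sbi_oldQ`, `m59epw_sbi_oldTh`, `m59epw_sbi_isLG2`, and the HEADLINE `m59epw_sbi_M2LG4 : m59m_M2LG_stmt` (helper14's seam of `M59/S38g/MachSeams.lean`, closed).
Rule of the cell: the twin of main's `twe_X` is `m59epw_X`; `5 ≤ p` becomes `p ≠ 2`; in the generic files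
`(hp5 : 5 ≤ p) (hpM : ¬ p ∣ M)` becomes `(hp2 : p ≠ 2) (hPE : every γ ∈ Γ₀(M) with tr² ≤ 4 lies in Γ_H'')`;
in the instance files `hp5 hp𝒪 hsq hpN` becomes `hp2 hp𝒪 hrig hsq` (`hrig : m59ep_Rigid p N`; `¬ p ∣ N` is
dropped).  Same proofs.
-/
import Mathlib
import Fermat.Agent.TW.Aut.SeamBigInst3
import Fermat.Agent.M59.S38g.MachSeams
import Fermat.Agent.M59.EP.Twin.SeamBigInst2
import Fermat.Agent.M59.EP.Twin.SeamOldBig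

set_option autoImplicit false
set_option linter.unusedSectionVars false
set_option linter.unusedVariables false
set_option linter.style.haveILetI false
set_option synthInstance.maxHeartbeats 400000
set_option maxHeartbeats 1000000

noncomputable section

namespace Fermat.Agent.M59

open IsLocalRing Polynomial CuspForm Fermat.Agent.JT3 Fermat.Agent.LR CongruenceSubgroup Fermat.Agent.TW
open Fermat.Agent.S56
open scoped MatrixGroups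

section islg

variable {p : ℕ} [Fact p.Prime]
  {𝒪 : Type} [CommRing 𝒪] [IsDomain 𝒪] [IsDiscreteValuationRing 𝒪]
  [IsAdicComplete (maximalIdeal 𝒪) 𝒪] [Finite (ResidueField 𝒪)] [CharZero 𝒪]
  {N : ℕ} [NeZero N] {S : Finset ℕ} {θ : heckeAlgebra N 2 (↑S : Set ℕ) →+* ResidueField 𝒪}

variable (hp2 : p ≠ 2) (hp𝒪 : (p : 𝒪) ∈ maximalIdeal 𝒪) (hrig : m59ep_Rigid p N)
    (hsq : Squarefree N) (hpS : p ∈ S) (hNS : ∀ ℓ : ℕ, ℓ.Prime → ℓ ∣ N → ℓ ∈ S)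
    (ρbar : ResidualGaloisRep (ResidueField 𝒪)) (hcompat : twt_Compat θ ρbar)
    (hirr : ρbar.IsAbsolutelyIrreducible)
    (B : twe_Base 𝒪 N S θ) (hfull : B.IsFull)
    (Q : Finset ℕ) [NeZero (twe_Nbal N Q ∅)] (hQS : ∀ t ∈ Q, t ∉ S) (hTW : twe_IsTWSet θ p Q)
    (Th : Finset ℕ) [NeZero (twe_Nbal N Q Th)] (hTh : ∀ ℓ ∈ Th, ℓ.Prime ∧ ℓ ∣ N)
    (θ' : heckeAlgebra (twe_Nbal N Q ∅) 2 (↑(S ∪ Q) : Set ℕ) →+* ResidueField 𝒪)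
    (θ'_eq : ∀ (ℓ : ℕ) (hℓ : ℓ.Prime) (h1 : ¬ ℓ ∣ twe_Nbal N Q ∅) (h2 : ℓ ∉ (↑(S ∪ Q) : Set ℕ))
      (h3 : ¬ ℓ ∣ N) (h4 : ℓ ∉ (↑S : Set ℕ)),
      θ' (heckeAlgebra.T hℓ h1 h2) = θ (heckeAlgebra.T hℓ h3 h4))
    (B' : twe_Base 𝒪 (twe_Nbal N Q ∅) (S ∪ Q) θ') (hfull' : B'.IsFull)
    (θ'' : heckeAlgebra (twe_Nbal N Q Th) 2 (↑(S ∪ Q) : Set ℕ) →+* ResidueField 𝒪)
    (θ''_eq : ∀ (ℓ : ℕ) (hℓ : ℓ.Prime) (h1 : ¬ ℓ ∣ twe_Nbal N Q Th) (h2 : ℓ ∉ (↑(S ∪ Q) : Set ℕ))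
      (h3 : ¬ ℓ ∣ N) (h4 : ℓ ∉ (↑S : Set ℕ)),
      θ'' (heckeAlgebra.T hℓ h1 h2) = θ (heckeAlgebra.T hℓ h3 h4))
    (hc'' : twt_Compat θ'' ρbar)
    (B'' : twe_Base 𝒪 (twe_Nbal N Q Th) (S ∪ Q) θ'') (hfull'' : B''.IsFull)
    {M : ℕ} [NeZero M] (hM : M = N * ∏ t ∈ Q, t)
    (hQp : ∀ t ∈ Q, t.Prime) (hQM : ∀ t ∈ Q, t ∣ M)
    (hThp : ∀ t ∈ Th, t.Prime) (hThM : ∀ t ∈ Th, t ∣ M)
    (F'' : twe_sm_Frame M (twe_di_pair p Q Th M hQp hQM hThp hThM).ker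
      (twe_sm_q (twe_Nbal N Q Th) (S ∪ Q)))
    (a'' : twe_sm_Idx (twe_Nbal N Q Th) (S ∪ Q) → 𝒪) (ha'' : twe_sm_IsLift θ'' a'')

/-- shorthand for the big data. -/
local notation "𝔇" => m59epw_sbi_data hp2 hp𝒪 hrig hsq hpS hNS ρbar hcompat hirr B hfull Q hQS hTW Th hTh θ' θ'_eq B' hfull' θ'' θ''_eq hc'' B'' hfull'' hM hQp hQM hThp hThM F'' a'' ha''

/-- **OLD-AT-`t`, `t ∈ Q`**, for the big system `(m59epw_sbi_data Ξ).toBig`. -/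
theorem m59epw_sbi_oldQ (t : ℕ) (ht : t ∈ Q) :
    ∃ _ : NeZero (twe_Nbal N Q Th / t),
      Nonempty (twe_OldAt (𝔇).toBig.H'' ((𝔇).toBig.diaQ t ht) t) := by
  unfold m59epw_sbi_data
  exact m59epw_soi_bigQ _ _ _ _ _ _ _ _ _ _ _ _ _ _ _ _ _ _ _ _ _ _ _ _ _ hsq
    (twe_sli_hQ hNS hQS hTW) hTh hM hpS ρbar hcompat hirr t ht

/-- **OLD-AT-`t`, `t ∈ Th`**, for the big system `(m59epw_sbi_data Ξ).toBig`. -/
theorem m59epw_sbi_oldTh (t : ℕ) (ht : t ∈ Th) :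
    ∃ _ : NeZero (twe_Nbal N Q Th / t),
      Nonempty (twe_OldAt (𝔇).toBig.H'' ((𝔇).toBig.diaTh t ht) t) := by
  unfold m59epw_sbi_data
  exact m59epw_soi_bigTh _ _ _ _ _ _ _ _ _ _ _ _ _ _ _ _ _ _ _ _ _ _ _ _ _ hsq
    (twe_sli_hQ hNS hQS hTW) hTh hM hpS ρbar hcompat hirr t ht

/-- **the [E] → [A] clauses** for the big system `(m59epw_sbi_data Ξ).toBig`. -/
theorem m59epw_sbi_isLG2 : (𝔇).toBig.IsLG2 :=
  ⟨fun t ht =>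
    ⟨m59epw_sbi_oldQ hp2 hp𝒪 hrig hsq hpS hNS ρbar hcompat hirr B hfull Q hQS hTW Th hTh θ' θ'_eq B' hfull' θ'' θ''_eq hc'' B'' hfull'' hM hQp hQM hThp hThM F'' a'' ha'' t ht, m59epw_sbi_newQ hp2 hp𝒪 hrig hsq hpS hNS ρbar hcompat hirr B hfull Q hQS hTW Th hTh θ' θ'_eq B' hfull' θ'' θ''_eq hc'' B'' hfull'' hM hQp hQM hThp hThM F'' a'' ha'' t ht⟩,
   fun t ht =>
    ⟨m59epw_sbi_oldTh hp2 hp𝒪 hrig hsq hpS hNS ρbar hcompat hirr B hfull Q hQS hTW Th hTh θ' θ'_eq B' hfull' θ'' θ''_eq hc'' B'' hfull'' hM hQp hQM hThp hThM F'' a'' ha'' t ht, m59epw_sbi_newTh hp2 hp𝒪 hrig hsq hpS hNS ρbar hcompat hirr B hfull Q hQS hTW Th hTh θ' θ'_eq B' hfull' θ'' θ''_eq hc'' B'' hfull'' hM hQp hQM hThp hThM F'' a'' ha'' t ht⟩⟩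

end islg

/-- **(M2) with the [E] → [A] seam, version 4, for `p ∈ {3, 5}` under rigidity** (helper14's
`m59m_M2LG_stmt`, `M59/S38g/MachSeams.lean`): ONE full base package, and over it, for every
Taylor–Wiles set `Q` and every set `Th` of hard primes, a unipotent system `L` and a big system `Bg`
over it with `Bg.IsLG2`. -/
theorem m59epw_sbi_M2LG4 : m59m_M2LG_stmt := by
  intro p _ h35 𝒪 _ _ _ _ _ _ hp𝒪 N _ hsq hpN hrig S hpS hNS θ ρbar hcompat hirr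
  have hp2 : p ≠ 2 := by rcases h35 with h | h <;> omega
  obtain ⟨B, hfull⟩ := m59epw_dt_M1F p hp2 𝒪 hp𝒪 N S hpS hNS θ ρbar hcompat hirr
  refine ⟨B, fun Q _ hQS hTW _ Th _ hTh4 _ => ?_⟩
  have hTh : ∀ ℓ ∈ Th, ℓ.Prime ∧ ℓ ∣ N := fun ℓ hℓ => ⟨(hTh4 ℓ hℓ).1, (hTh4 ℓ hℓ).2.1⟩
  have hQp : ∀ t ∈ Q, t.Prime := fun t ht => (hTW t ht).1
  have hThp : ∀ t ∈ Th, t.Prime := fun t ht => (hTh t ht).1
  obtain ⟨θ', θ'_eq, -, B', hfull'⟩ := m59epw_slf_base hp2 hp𝒪 hpS hNS ρbar hcompat hirr Q hQS hTW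
  obtain ⟨θ'', θ''_eq, hc'', B'', hfull''⟩ := m59epw_sbi_base hp2 hp𝒪 hpS hNS ρbar hcompat hirr Q
    hQS hTW Th hTh
  have hM0 : N * ∏ t ∈ Q, t ≠ 0 :=
    mul_ne_zero (NeZero.ne N) (Finset.prod_ne_zero_iff.2 fun t ht => (hQp t ht).ne_zero)
  have : NeZero (N * ∏ t ∈ Q, t) := ⟨hM0⟩
  have hM : N * ∏ t ∈ Q, t = N * ∏ t ∈ Q, t := rfl
  have hQM := twe_sli_dvd_M hM
  have hThM := twe_sbi_dvd_M_Th (Q := Q) hTh hM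
  have hodd : Odd p := (Fact.out : p.Prime).odd_of_ne_two hp2
  obtain ⟨F''⟩ := twe_sbi_exists_frame (p := p) (N := N) (S := S) hodd hM hQp hQM hThp hThM
  obtain ⟨a'', ha''⟩ := twe_slf_exists_lift θ''
  exact ⟨_, (m59epw_sbi_data hp2 hp𝒪 hrig hsq hpS hNS ρbar hcompat hirr B hfull Q hQS hTW Th hTh θ'
      θ'_eq B' hfull' θ'' θ''_eq hc'' B'' hfull'' hM hQp hQM hThp hThM F'' a'' ha'').toBig,
    m59epw_sbi_isLG2 hp2 hp𝒪 hrig hsq hpS hNS ρbar hcompat hirr B hfull Q hQS hTW Th hTh θ'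
      θ'_eq B' hfull' θ'' θ''_eq hc'' B'' hfull'' hM hQp hQM hThp hThM F'' a'' ha''⟩

end Fermat.Agent.M59
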