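/-
Project M59 (S59), block [E'] (architect helper3), cell [EP-TWIN] (helper5 + helper22), tag `m59epw_`.
`m59epw_sli_total` : E/Free (`m59epw_smod_total`, the twin of `twe_sx_Ctx.total`) instantiated at EXACTLY
the inputs of `m59epw_sli_data` (`Twin/SeamLevelInst.lean`): the orbit basis of
`P = prim W(Γ_H, 𝒪)`, `H = ker ((ℤ/M)ˣ → Δ_Q)`, and the total transfer `cor` onto `prim W(Γ₀(M), 𝒪)`,
`M = N ∏_{t ∈ Q} t`, for every odd `p` under `m59ep_Rigid p N`.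
-/
import Mathlib
import Fermat.Agent.M59.EP.Twin.SeamLevelInst

set_option autoImplicit false
set_option linter.unusedSectionVars false
set_option linter.unusedVariables false
set_option linter.style.haveILetI false
set_option synthInstance.maxHeartbeats 400000
set_option maxHeartbeats 1000000

noncomputable section

namespace Fermat.Agent.M59

open IsLocalRing Polynomial CuspForm Fermat.Agent.JT3 Fermat.Agent.LR CongruenceSubgroup Fermat.Agent.TW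
open scoped MatrixGroups
open Fermat.Agent.S56

section data

variable {p : ℕ} [Fact p.Prime]
  {𝒪 : Type} [CommRing 𝒪] [IsDomain 𝒪] [IsDiscreteValuationRing 𝒪]
  [IsAdicComplete (maximalIdeal 𝒪) 𝒪] [Finite (ResidueField 𝒪)] [CharZero 𝒪]
  {N : ℕ} [NeZero N] {S : Finset ℕ} {θ : heckeAlgebra N 2 (↑S : Set ℕ) →+* ResidueField 𝒪}

/-- **E/Free at the inputs of `m59epw_sli_data`**: the orbit basis of `P = prim W(Γ_H, 𝒪)` and the total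
transfer `P → prim W(Γ₀(M), 𝒪)`: surjective, kernel the augmentation submodule of the diamond
representation `twe_smod_rho (twe_di_d1 …)` (which is `(m59epw_sli_data …).ρ` by
`m59epw_sli_data_rho`), equivariant for the frame operators; the target is finite free of rank `r`. -/
theorem m59epw_sli_total (hp2 : p ≠ 2) (hp𝒪 : (p : 𝒪) ∈ maximalIdeal 𝒪) (hrig : m59ep_Rigid p N)
    (ρbar : ResidualGaloisRep (ResidueField 𝒪)) (hcompat : twt_Compat θ ρbar)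
    (hirr : ρbar.IsAbsolutelyIrreducible)
    (Q : Finset ℕ) [NeZero (twe_Nbal N Q ∅)]
    (θ' : heckeAlgebra (twe_Nbal N Q ∅) 2 (↑(S ∪ Q) : Set ℕ) →+* ResidueField 𝒪)
    (θ'_eq : ∀ (ℓ : ℕ) (hℓ : ℓ.Prime) (h1 : ¬ ℓ ∣ twe_Nbal N Q ∅) (h2 : ℓ ∉ (↑(S ∪ Q) : Set ℕ))
      (h3 : ¬ ℓ ∣ N) (h4 : ℓ ∉ (↑S : Set ℕ)),
      θ' (heckeAlgebra.T hℓ h1 h2) = θ (heckeAlgebra.T hℓ h3 h4))
    {M : ℕ} [NeZero M] (hM : M = N * ∏ t ∈ Q, t)
    (hQp : ∀ t ∈ Q, t.Prime) (hQM : ∀ t ∈ Q, t ∣ M)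
    (F : twe_sm_Frame M (twe_di_hom p Q M hQp hQM).ker (twe_sm_q (twe_Nbal N Q ∅) (S ∪ Q)))
    (a : twe_sm_Idx (twe_Nbal N Q ∅) (S ∪ Q) → 𝒪) (ha : twe_sm_IsLift θ' a) :
    ∃ (r : ℕ) (v : Fin r → ↥(twe_pr_prim (twe_sm_TY 𝒪 F) a))
      (b : Module.Basis (twe_Delta p Q × Fin r) 𝒪 ↥(twe_pr_prim (twe_sm_TY 𝒪 F) a))
      (cor : ↥(twe_pr_prim (twe_sm_TY 𝒪 F) a) →ₗ[𝒪]
        ↥(twe_pr_prim (twe_br_T0fam (𝒪 := 𝒪) (twe_sm_q (twe_Nbal N Q ∅) (S ∪ Q)) F.hq F.hM) a)),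
      (∀ δ i, b (δ, i) = twe_smod_rho (twe_di_d1 p Q M hQp hQM)
        (twe_di_d1_surjective p Q M hQp hQM) (twe_di_d1_eq_one_iff p Q M hQp hQM) F a δ (v i)) ∧
      Function.Surjective cor ∧
      LinearMap.ker cor = twe_smod_aug (P := ↥(twe_pr_prim (twe_sm_TY 𝒪 F) a))
        (twe_smod_rho (twe_di_d1 p Q M hQp hQM) (twe_di_d1_surjective p Q M hQp hQM)
          (twe_di_d1_eq_one_iff p Q M hQp hQM) F a) ∧
      (∀ (i : twe_sm_Idx (twe_Nbal N Q ∅) (S ∪ Q)) (y y' : ↥(twe_pr_prim (twe_sm_TY 𝒪 F) a)),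
        (y' : ↥(twe_wl_V 𝒪 𝒪 (twe_GamH M (twe_di_hom p Q M hQp hQM).ker))) = twe_sm_TY 𝒪 F i y →
        ((cor y' : ↥(twe_pr_prim (twe_br_T0fam (𝒪 := 𝒪) (twe_sm_q (twe_Nbal N Q ∅) (S ∪ Q))
            F.hq F.hM) a)) : ↥(twe_wl_V 𝒪 𝒪 (Gamma0 M))) =
          twe_br_T0fam (𝒪 := 𝒪) (twe_sm_q (twe_Nbal N Q ∅) (S ∪ Q)) F.hq F.hM i (cor y)) ∧
      Module.Finite 𝒪 ↥(twe_pr_prim (twe_br_T0fam (𝒪 := 𝒪) (twe_sm_q (twe_Nbal N Q ∅) (S ∪ Q))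
        F.hq F.hM) a) ∧
      Module.Free 𝒪 ↥(twe_pr_prim (twe_br_T0fam (𝒪 := 𝒪) (twe_sm_q (twe_Nbal N Q ∅) (S ∪ Q))
        F.hq F.hM) a) ∧
      Module.finrank 𝒪 ↥(twe_pr_prim (twe_br_T0fam (𝒪 := 𝒪) (twe_sm_q (twe_Nbal N Q ∅) (S ∪ Q))
        F.hq F.hM) a) = r := by
  letI : Fintype (twe_Delta p Q) := twe_sld_fintype p Q
  exact m59epw_smod_total (𝒪 := 𝒪) (twe_di_d1 p Q M hQp hQM) (twe_di_d1_surjective p Q M hQp hQM)
    (twe_di_d1_eq_one_iff p Q M hQp hQM) F Subtype.val_injective a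
    (twe_di_neg_one_mem_GamH1 p Q M hQp hQM ((Fact.out : p.Prime).odd_of_ne_two hp2))
    (m59epw_sli_hPE hp2 hrig (Dvd.intro _ hM.symm) Q hQp hQM) Fact.out hp2 hp𝒪
    (twe_di_delta_pow_exp p Q)
    (m59epw_sli_i0 hp2 hp𝒪 ρbar hcompat hirr Q θ' θ'_eq a ha)
    (m59epw_sli_i0_ne hp2 hp𝒪 ρbar hcompat hirr Q θ' θ'_eq a ha)

end data

end Fermat.Agent.M59
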